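import Fermat.Agent.ML.Hard.Poly
import Fermat.Agent.ML.Lift.Inst.MidAbs

/-!
# ML / Hard / Mid / Abs : the MIDDLE BLOCK of a raising step in the F-form, abstract (ring level)

The F-analogue of `Lift.mid_abs` (`ML/Lift/Inst/MidAbs.lean`); it serves the hard step and the step at `p`.

`R` a commutative ring, `π0 : R →+* ZMod p`, `ρ : G_ℚ → M₂(R)`, `Gt` a submodule of an `R`-module (the stage module `uA G`).

* `PkgOne p π0 ρ Gt v u be P1 pt f` : an OLD prime of weight `1` : one variable `u` (auxiliary value `pt`), a multiplier `be` which is the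
  polynomial `P1(u)` modulo `Ann Gt`, `¬ p^(f+1) ∣ P1(pt)`, and `ρ|D_v` is strict modulo `Ann Gt + I` as soon as `u ∈ I`.
* `PkgHard p π0 ρ Gt v x D` : an OLD (raised) hard prime : six variables with the scroll relations modulo `Ann Gt`; multiplier `x 0`.
* `mid_abs_F` : the fields `card scr hval gen hpt hc hβ hxc hxβ` of `Hard.MidData`.
-/

set_option autoImplicit false
set_option linter.unusedSectionVars false

noncomputable section

open ExtCitation MvPolynomial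

namespace Fermat.Agent.ML.Hard

open Fermat.Agent.RIB Fermat.Agent.S56 Fermat.Agent.ML Fermat.Agent.ML.Lift
open CFT (decomp)

variable {R : Type} [CommRing R] {Y : Type*} [AddCommGroup Y] [Module R Y]

/-- an OLD prime of weight `1`. -/
structure PkgOne (p : ℕ) (π0 : R →+* ZMod p) (ρ : GQ →* M2 R) (Gt : Submodule R Y)
    (v : Nat.Primes) (u be : R) (P1 : Polynomial ℤ) (pt : ℤ) (f : ℕ) : Prop where
  pi0_u : π0 u = 0
  strict : ∀ I : Ideal R, u ∈ I → ∃ M : M2 R, IsUnit (M.map π0) ∧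
    ∀ σ ∈ decomp v, ConjConst ℤ (Gt.annihilator ⊔ I) M (ρ σ)
  pol : be - Polynomial.aeval u P1 ∈ Gt.annihilator
  hpt : (p : ℤ) ∣ pt
  hN : ¬ (p : ℤ) ^ (f + 1) ∣ P1.eval pt

/-- an OLD (raised) hard prime. -/
structure PkgHard (p : ℕ) (π0 : R →+* ZMod p) (ρ : GQ →* M2 R) (Gt : Submodule R Y)
    (v : Nat.Primes) (x : Fin 6 → R) (D : ℤ) : Prop where
  pi0_x : ∀ j, π0 (x j) = 0
  scr : Scroll (fun j => Ideal.Quotient.mk Gt.annihilator (x j))
    ((((p : ℤ) * D : ℤ)) : R ⧸ Gt.annihilator)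
  strict : ∀ I : Ideal R, (∀ j, x j ∈ I) → ∃ M : M2 R, IsUnit (M.map π0) ∧
    ∀ σ ∈ decomp v, ConjConst ℤ (Gt.annihilator ⊔ I) M (ρ σ)

/-- `¬ p^(n+1) ∣ p^n`. -/
theorem mid_not_pow_succ_dvd {p : ℕ} (hp : p.Prime) (n : ℕ) : ¬ (p : ℤ) ^ (n + 1) ∣ (p : ℤ) ^ n := by
  intro h
  have h1 : p ^ (n + 1) ∣ p ^ n := by exact_mod_cast h
  have h2 := Nat.le_of_dvd (pow_pos hp.pos n) h1
  have h3 : p ^ n < p ^ (n + 1) := Nat.pow_lt_pow_right hp.one_lt (Nat.lt_succ_self n)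
  omega

section Vars

variable (R1 Hs : Finset Nat.Primes) (wn g : ℕ)

/-- the free variables : one for each `v ∈ R1`, the `wn` variables of the new prime, the `g` global ones. -/
abbrev MidSg : Type := ↥R1 ⊕ (Fin wn ⊕ Fin g)

variable {R1 Hs wn g}

/-- the values of the variables. -/
def midVal (xv : Nat.Primes → Fin 6 → R) (u : Nat.Primes → R) (yn : Fin wn → R) (x : Fin g → R) :
    PV ↥Hs (MidSg R1 wn g) → R :=
  Sum.elim (fun z => xv z.1 z.2) (Sum.elim (fun v => u v) (Sum.elim yn x))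

/-- the auxiliary point. -/
def midPt (ptv : Nat.Primes → ℤ) : MidSg R1 wn g → ℤ := Sum.elim (fun v => ptv v) (fun _ => 0)

/-- the polynomial of the multiplier. -/
def midPβ (N0 : ℤ) (P1 : Nat.Primes → Polynomial ℤ) : MvPolynomial (PV ↥Hs (MidSg R1 wn g)) ℤ :=
  C N0 * (∏ v : ↥Hs, X (Sum.inl (v, 0))) *
    ∏ v : ↥R1, Polynomial.aeval (X (Sum.inr (Sum.inl v)) : MvPolynomial (PV ↥Hs (MidSg R1 wn g)) ℤ)
      (P1 v)

/-- the inclusion of the variables of the new prime. -/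
def midNew : Fin wn → PV ↥Hs (MidSg R1 wn g) := fun j => Sum.inr (Sum.inr (Sum.inl j))

theorem aeval_midPβ {A : Type*} [CommRing A] (val : PV ↥Hs (MidSg R1 wn g) → A) (N0 : ℤ)
    (P1 : Nat.Primes → Polynomial ℤ) :
    aeval val (midPβ (Hs := Hs) (R1 := R1) (wn := wn) (g := g) N0 P1) =
      (N0 : A) * (∏ v : ↥Hs, val (Sum.inl (v, 0))) *
        ∏ v : ↥R1, Polynomial.aeval (val (Sum.inr (Sum.inl v))) (P1 v) := by
  rw [midPβ, map_mul, map_mul, map_prod, map_prod]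
  congr 1
  · congr 1
    · rw [MvPolynomial.aeval_C]; simp
    · exact Finset.prod_congr rfl fun v _ => aeval_X _ _
  · refine Finset.prod_congr rfl fun v _ => ?_
    rw [← Polynomial.aeval_algHom_apply, aeval_X]

end Vars

variable {p : ℕ} [Fact p.Prime]

/-- **the middle block in the F-form, abstract.** -/
theorem mid_abs_F {t : ℕ} {π0 : R →+* ZMod p} {ρ : GQ →* M2 R} (Gt : Submodule R Y)
    (R1 Hs : Finset Nat.Primes)
    (u be : Nat.Primes → R) (P1 : Nat.Primes → Polynomial ℤ) (ptv : Nat.Primes → ℤ)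
    (f : Nat.Primes → ℕ)
    (pkg1 : ∀ v ∈ R1, PkgOne p π0 ρ Gt v (u v) (be v) (P1 v) (ptv v) (f v))
    (xv : Nat.Primes → Fin 6 → R) (Dv : Nat.Primes → ℤ)
    (pkgH : ∀ v ∈ Hs, PkgHard p π0 ρ Gt v (xv v) (Dv v))
    (be0 : R) (N0 : ℤ) (f0 : ℕ) (hbe0 : be0 - (N0 : R) ∈ Gt.annihilator)
    (hN0 : ¬ (p : ℤ) ^ (f0 + 1) ∣ N0)
    (wn : ℕ) (yn : Fin wn → R) (hyn : ∀ j, π0 (yn j) = 0)
    (hgen : ∀ I : Ideal R, (∀ a ∈ I, π0 a = 0) → (∀ v ∈ R1, u v ∈ I) →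
      (∀ v ∈ Hs, ∀ j, xv v j ∈ I) → (∀ j, yn j ∈ I) →
      ∃ (g : ℕ) (x : Fin g → R), R1.card + 3 * Hs.card + wn + g ≤ t ∧ (∀ i, π0 (x i) = 0) ∧
        RingHom.ker π0 ≤ Gt.annihilator ⊔ I ⊔ Ideal.span (Set.range x) ⊔ Ideal.span {(p : R)})
    (c : R) (Pc0 : MvPolynomial (Fin wn) ℤ) (hc : c - aeval yn Pc0 ∈ Gt.annihilator)
    (hxc : aeval (fun _ : Fin wn => (0 : ℤ)) Pc0 = 0) :
    ∃ (σ : Type) (_ : Fintype σ) (val : PV ↥Hs σ → R) (pt : σ → ℤ)
      (Pc Pβ : MvPolynomial (PV ↥Hs σ) ℤ),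
      3 * Fintype.card ↥Hs + Fintype.card σ ≤ t ∧
      (∀ r : ↥Hs, Scroll (fun j => Ideal.Quotient.mk Gt.annihilator (val (Sum.inl (r, j))))
        ((((p : ℤ) * Dv r : ℤ)) : R ⧸ Gt.annihilator)) ∧
      (∀ z, π0 (val z) = 0) ∧
      RingHom.ker π0 ≤ Gt.annihilator ⊔ Ideal.span (Set.range val) ⊔ Ideal.span {(p : R)} ∧
      (∀ s, (p : ℤ) ∣ pt s) ∧
      c - aeval val Pc ∈ Gt.annihilator ∧
      be0 * (∏ v ∈ Hs, xv v 0) * (∏ v ∈ R1, be v) - aeval val Pβ ∈ Gt.annihilator ∧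
      aeval (auxVal p ↥Hs σ pt) Pc = 0 ∧
      ¬ (p : ℤ) ^ (f0 + Hs.card + ∑ v ∈ R1, f v + 1) ∣ aeval (auxVal p ↥Hs σ pt) Pβ := by
  classical
  have hp : p.Prime := Fact.out
  set I : Ideal R := Ideal.span ((Set.range fun v : ↥R1 => u v) ∪
    (Set.range fun z : ↥Hs × Fin 6 => xv z.1 z.2) ∪ Set.range yn) with hI
  have hI0 : ∀ a ∈ I, π0 a = 0 := by
    have : I ≤ RingHom.ker π0 := by
      rw [hI, Ideal.span_le]
      rintro _ ((⟨v, rfl⟩ | ⟨z, rfl⟩) | ⟨j, rfl⟩)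
      · exact (RingHom.mem_ker).2 (pkg1 v v.2).pi0_u
      · exact (RingHom.mem_ker).2 ((pkgH z.1 z.1.2).pi0_x z.2)
      · exact (RingHom.mem_ker).2 (hyn j)
    exact fun a ha => (RingHom.mem_ker).1 (this ha)
  obtain ⟨g, x, hcard, hx, hle⟩ := hgen I hI0
    (fun v hv => Ideal.subset_span (Or.inl (Or.inl ⟨⟨v, hv⟩, rfl⟩)))
    (fun v hv j => Ideal.subset_span (Or.inl (Or.inr ⟨(⟨v, hv⟩, j), rfl⟩)))
    (fun j => Ideal.subset_span (Or.inr ⟨j, rfl⟩))
  set val : PV ↥Hs (MidSg R1 wn g) → R := midVal xv u yn x with hval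
  set pt : MidSg R1 wn g → ℤ := midPt ptv with hpt
  refine ⟨MidSg R1 wn g, inferInstance, val, pt, rename midNew Pc0, midPβ N0 P1,
    ?_, ?_, ?_, ?_, ?_, ?_, ?_, ?_, ?_⟩
  · -- card
    rw [Fintype.card_sum, Fintype.card_sum, Fintype.card_coe, Fintype.card_coe, Fintype.card_fin,
      Fintype.card_fin]
    omega
  · -- scr
    intro r
    exact (pkgH r r.2).scr
  · -- hval
    rintro (z | v | j | i)
    · exact (pkgH z.1 z.1.2).pi0_x z.2
    · exact (pkg1 v v.2).pi0_u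
    · exact hyn j
    · exact hx i
  · -- gen
    refine hle.trans (sup_le_sup_right ?_ _)
    refine sup_le (sup_le le_sup_left (le_sup_of_le_right ?_)) (le_sup_of_le_right ?_)
    · rw [hI, Ideal.span_le]
      rintro _ ((⟨v, rfl⟩ | ⟨z, rfl⟩) | ⟨j, rfl⟩)
      · exact Ideal.subset_span ⟨Sum.inr (Sum.inl v), rfl⟩
      · exact Ideal.subset_span ⟨Sum.inl z, rfl⟩
      · exact Ideal.subset_span ⟨Sum.inr (Sum.inr (Sum.inl j)), rfl⟩
    · refine Ideal.span_mono ?_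
      rintro _ ⟨i, rfl⟩
      exact ⟨Sum.inr (Sum.inr (Sum.inr i)), rfl⟩
  · -- hpt
    rintro (v | j)
    · exact (pkg1 v v.2).hpt
    · exact dvd_zero _
  · -- hc
    rw [aeval_rename]
    exact hc
  · -- hβ
    rw [aeval_midPβ, ← Ideal.Quotient.eq, map_mul, map_mul, map_mul, map_mul, map_prod, map_prod,
      map_prod, map_prod]
    congr 1
    · congr 1
      · exact Ideal.Quotient.eq.2 hbe0
      · exact (Finset.prod_coe_sort Hs fun v => Ideal.Quotient.mk Gt.annihilator (xv v 0)).symm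
    · rw [← Finset.prod_coe_sort R1 fun v => Ideal.Quotient.mk Gt.annihilator (be v)]
      exact Finset.prod_congr rfl fun v _ => Ideal.Quotient.eq.2 (pkg1 v v.2).pol
  · -- hxc
    rw [aeval_rename]
    exact hxc
  · -- hxβ
    rw [aeval_midPβ]
    have e1 : ∏ v : ↥Hs, auxVal p ↥Hs (MidSg R1 wn g) pt (Sum.inl (v, 0)) = (p : ℤ) ^ Hs.card := by
      simp only [auxVal_inl_zero, Finset.prod_const, Finset.card_univ, Fintype.card_coe]
    have e2 : ∏ v : ↥R1, Polynomial.aeval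
        (auxVal p ↥Hs (MidSg R1 wn g) pt (Sum.inr (Sum.inl v))) (P1 v) =
        ∏ v ∈ R1, (P1 v).eval (ptv v) := by
      rw [← Finset.prod_coe_sort R1 fun v => (P1 v).eval (ptv v)]
      refine Finset.prod_congr rfl fun v _ => ?_
      rw [Polynomial.coe_aeval_eq_eval]
      rfl
    rw [e1, e2, Int.cast_id]
    exact not_pow_dvd_mul' hp (not_pow_dvd_mul' hp hN0 (mid_not_pow_succ_dvd hp _))
      (not_pow_dvd_prod hp R1 _ f fun v hv => (pkg1 v hv).hN)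

end Fermat.Agent.ML.Hard
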