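import Fermat.Agent.ML.Hard.LocOut
import Fermat.Agent.ML.Raise.SoftTop
import Fermat.Agent.ML.Main.StepSplit
import Fermat.Agent.ML.Gen.Stage
import Fermat.Agent.ML.Lift.Base.Loc

/-!
# ML / Hard / Mid / Old : the CONCRETE packages at the primes raised BEFORE the current step   (the new prime does not appear)

Frame of `StepGen.genHyp_cell` / `StepP.gen_cell_p` : `H : Rho.IsRhoK N' (p^(K+1)) X' (rEB B) πE ρ Φ` the ring of the step (upper level `N'`),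
`G` the cell at the lower level (state `P`), `u : J₀(N) →+ J₀(N')` equivariant, `Y ≤ X'` the stage module, `Y ⊆ u G`.

* `old_level` : the shape of the upper level at an odd raised prime;
* `phi_mem_old` : `Y` is `Φ`-stable;
* `old_hard` : `v ∈ P` hard : six variables `x`, `π0 x = 0`, the scroll relations modulo `Ann Y`, (STRICT), weight `3`,
  (OUT) `x 0 ∣ β' ⟹ LocSt v (eps v)`, `LocUnip v` on `β' X'`;
* `old_soft` : `v ∈ P` soft : one variable `bv`, `π0 bv = 0`, (STRICT), weight `1`, (OUT) `bv ∣ β'`.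
-/

set_option autoImplicit false
set_option linter.unusedSectionVars false

noncomputable section

open AlgebraicCurve ModularCurve

namespace Fermat.Agent.ML.Hard

open Matrix Fermat.Agent.GAL Fermat.Agent.RIB Fermat.Agent.RIB.Rho Fermat.Agent.ML.ESide
  Fermat.Agent.ML.Rho Fermat.Agent.ML.Lift Fermat.Agent.S56 Fermat.Agent.S56.Flat
  Fermat.Agent.S56.Gen Fermat.Agent.ML.FinGen Fermat.Agent.ML.StepGen Fermat.Agent.ML.Raise
  ExtCitation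
open CFT (decomp)

local notation "Qbar" => AlgebraicClosure ℚ
local notation "GQ" => (AlgebraicClosure ℚ ≃ₐ[ℚ] AlgebraicClosure ℚ)
local notation "M₂" => Matrix (Fin 2) (Fin 2)

variable {W : WeierstrassCurve ℤ} {p : ℕ} [Fact p.Prime] {T : Finset ℕ}
  {b : Module.Basis (Fin 2) (ZMod p) (TorsW W p)} {L₀ : ℕ} [NeZero L₀] {eps : ℕ → ℤ}
  {eP : GQ → ℤ} (X : LCtx W p T b L₀ eps eP) {t K : ℕ} {qv : Fin t → Nat.Primes}
  {N' : ℕ} [NeZero N'] {X' : AddSubgroup (JZero N')}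
  {B : Module.Basis (Fin 2) (ZMod (p ^ (K + 1))) (TorsW W (p ^ (K + 1)))}
  (C : TopCtx W p b K B N' X')
  {R : Type} [CommRing R] [Algebra (ZMod (p ^ (K + 1))) R] [Module R ↥X']
  {πE : R →ₐ[ZMod (p ^ (K + 1))] ZMod (p ^ (K + 1))} {ρ : GQ →* M₂ R}
  {Φ : M₂ R →ₐ[R] Module.End R ↥X'}
  (H : Fermat.Agent.ML.Rho.IsRhoK N' (p ^ (K + 1)) X' (rEB B) πE ρ Φ)

include X in
/-- the level of a cell at an odd raised prime `v` : `v ‖ N'`, `4 ∣ N' / v`. -/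
theorem old_level {P' : Finset ℕ} (hP' : P' ⊆ Pfin W (rbarB b) L₀)
    (hnotT : ∀ i, ((qv i : Nat.Primes) : ℕ) ∉ T) {v : ℕ} (hv : v ∈ P') (hv2 : v ≠ 2) {Lc' : ℕ}
    (hLc' : Lc' = cellLevel L₀ P') :
    (∃ M : ℕ, lvl Lc' (extP qv) t = M * v ∧ ¬ v ∣ M ∧ (4 ∣ M ∨ 9 ∣ M)) ∧
      ¬ v ^ 2 ∣ lvl Lc' (extP qv) t := by
  have hvp : v.Prime := X.prime_of_mem_Pfin (hP' hv)
  have hvT : v ∈ T := X.hbadT v hvp (X.dvd_of_mem_Pfin (hP' hv))
  obtain ⟨M', hM', -, hsq⟩ := X.cellLevel_shape hP'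
  have h2 : ¬ v ^ 2 ∣ lvl Lc' (extP qv) t := by
    refine not_sq_dvd_lvl_of hvp (fun j hj => hnotT j (hj ▸ hvT)) ?_ t
    rw [hLc', hM']
    exact not_sq_dvd_of_shape hsq v hvp hv2
  have h1 : v ∣ lvl Lc' (extP qv) t := by
    refine Dvd.dvd.trans ?_ (dvd_lvl Lc' (extP qv) t)
    rw [hLc', cellLevel]
    exact (Finset.dvd_prod_of_mem (fun q => q) (Finset.mem_erase.2 ⟨hv2, hv⟩)).mul_left L₀
  have h4 : 4 ∣ lvl Lc' (extP qv) t := by
    refine Dvd.dvd.trans ?_ (dvd_lvl Lc' (extP qv) t)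
    rw [hLc', hM']
    exact Dvd.intro_left M' rfl
  obtain ⟨M, hM⟩ := h1
  refine ⟨⟨M, by rw [hM, mul_comm], fun hd => h2 ?_, Or.inl ?_⟩, h2⟩
  · obtain ⟨c, rfl⟩ := hd
    exact ⟨c, by rw [hM]; ring⟩
  · have hc : Nat.Coprime 4 v := by
      have : Nat.Coprime 2 v := (Nat.coprime_primes Nat.prime_two hvp).2 (Ne.symm hv2)
      exact Nat.Coprime.pow_left 2 this
    rw [hM] at h4
    exact hc.dvd_of_dvd_mul_left h4

include X C H in
/-- a Galois stable submodule of `X'` is `Φ`-stable. -/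
theorem phi_mem_old [IsLocalRing R] (Y : Submodule R ↥X')
    (hYG : ∀ (g : GQ), ∀ y ∈ Y, ∀ y' : ↥X', (y' : JZero N') = g • (y : JZero N') → y' ∈ Y)
    (M : M₂ R) : ∀ y ∈ Y, Φ M y ∈ Y := by
  have hadj : Algebra.adjoin R (Set.range ρ) = ⊤ := X.C.adjoin_range_rho' (C.lift H)
  have hM : M ∈ Algebra.adjoin R (Set.range ρ) := by rw [hadj]; trivial
  induction hM using Algebra.adjoin_induction with
  | mem M hM =>
    obtain ⟨g, rfl⟩ := hM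
    intro y hy
    exact hYG g y hy _ (H.act g y)
  | algebraMap r =>
    intro y hy
    rw [AlgHom.commutes, Module.algebraMap_end_apply]
    exact Y.smul_mem r hy
  | add M N _ _ h1 h2 =>
    intro y hy
    rw [map_add, LinearMap.add_apply]
    exact Y.add_mem (h1 y hy) (h2 y hy)
  | mul M N _ _ h1 h2 =>
    intro y hy
    rw [map_mul, Module.End.mul_apply]
    exact h1 _ (h2 y hy)

variable {Lc : ℕ} [NeZero Lc] {a : ℕ} {P : Finset ℕ}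
  {G : AddSubgroup (JZero (lvl Lc (extP qv) t))}
  (hG : IsCell p T W.apOfModel (rbarB b) eps eP Lc qv a P G)
  (u : JZero (lvl Lc (extP qv) t) →+ JZero N') (hu : ∀ (g : GQ) v, u (g • v) = g • u v)

include X C H hG hu in
/-- **the package at a HARD prime raised before.** -/
theorem old_hard [IsLocalRing R] [Finite R] (Y : Submodule R ↥X')
    (hYG : ∀ (g : GQ), ∀ y ∈ Y, ∀ y' : ↥X', (y' : JZero N') = g • (y : JZero N') → y' ∈ Y)
    (hYS : ∀ y ∈ Y, ∃ v ∈ G, u v = ((y : ↥X') : JZero N'))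
    (v : Nat.Primes) (hvP : (v : ℕ) ∈ P) (hvF : (v : ℕ) ∈ Pfin W (rbarB b) L₀) (hvp : (v : ℕ) ≠ p)
    (hs : FrobScalar (rbarB b) (v : ℕ)) {M : ℕ} (hN : N' = M * (v : ℕ)) (hvM : ¬ (v : ℕ) ∣ M)
    (h49 : 4 ∣ M ∨ 9 ∣ M) :
    ∃ (x : Fin 6 → R) (D : ℤ), (∀ j, pi0 πE (x j) = 0) ∧
      Scroll (fun j => Ideal.Quotient.mk Y.annihilator (x j))
        ((((p : ℤ) * D : ℤ)) : R ⧸ Y.annihilator) ∧
      (∀ I : Ideal R, (∀ j, x j ∈ I) → ∃ M : M₂ R, IsUnit (M.map (pi0 πE)) ∧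
        ∀ s ∈ decomp v, ConjConst ℤ (Y.annihilator ⊔ I) M (ρ s)) ∧
      Nat.card ↥(B1loc (adRep (mapK (kM p) (rbarB b))) v) * Nat.card (kM p) ^ 3 ≤
        Nat.card (kM p) ^ 3 ∧
      ∀ β' : R, x 0 ∣ β' → ∀ G' : Set (JZero N'),
        (∀ y ∈ G', ∃ x₁ : ↥X', ((β' • x₁ : ↥X') : JZero N') = y) →
        LocSt (v : ℕ) (eps (v : ℕ)) G' ∧ LocUnip (v : ℕ) G' := by
  have hA := liesOverPrime_primeLocalPlace v
  obtain ⟨φ, hφ⟩ := S54.exists_isFrobeniusAt_of_liesOverPrime v.2 _ hA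
  have D := hardAt_of X hvF hvp hs hN hvM h49
  have hur : ∀ σ ∈ inert v, rbarB b σ = 1 := fun σ hσ => D.ur _ hA σ hσ
  obtain ⟨⟨τ, hτ, hgen⟩, -, -⟩ := exists_tame_data C H v.2 hvp hA hur
  obtain ⟨D₀, hD₀⟩ := (hard_facts X v.2 hvp (X.dvd_of_mem_Pfin hvF) hs).2
  have hY := phi_mem_old X C H Y hYG
  have hYS' : ∀ y ∈ Y, ((y : ↥X') : JZero N') ∈ u '' (G : Set (JZero (lvl Lc (extP qv) t))) :=
    fun y hy => by
      obtain ⟨w, hw, e⟩ := hYS y hy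
      exact ⟨w, hw, e⟩
  have hst := (hG.st v hvP hvp).1.image u hu
  have hun := (hG.st v hvP hvp).2.image u hu
  have hdφ := C.det_frob H v.2 hvp hA hφ
  have hdτ := C.det_inertia H v.2 hvp hA hτ
  refine ⟨locVar (ρ φ) (ρ τ - 1) ((eps (v : ℕ) : ℤ) : R), D₀,
    fun j => pi0_locVar C H D.sgn (D.sc _ hA φ hφ) (hur τ hτ) j,
    scroll_of_cell H Y hY hYS' Y.annihilator le_rfl D.sgn hst hun hA hφ hτ hdφ hdτ hD₀,
    fun I hI => strict_raised_hard C H Y hY hYS' v hvp hur D.sgn hst hun hφ hτ hgen I hI,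
    X.C.weight_three v hur hφ (D.sc _ hA φ hφ), fun β' hβ G' hG' => ⟨?_, ?_⟩⟩
  · exact (locSt_smul_hard C H D hA hτ φ 0 (by norm_num) β' hβ).mono fun y hy => hG' y hy
  · refine (locUnip_top C H D).mono fun y hy => ?_
    obtain ⟨x₁, rfl⟩ := hG' y hy
    exact (β' • x₁).2

include X C H hG hu in
/-- **the package at a SOFT prime raised before.** -/
theorem old_soft [IsLocalRing R] (Y : Submodule R ↥X')
    (hYG : ∀ (g : GQ), ∀ y ∈ Y, ∀ y' : ↥X', (y' : JZero N') = g • (y : JZero N') → y' ∈ Y)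
    (hYS : ∀ y ∈ Y, ∃ v ∈ G, u v = ((y : ↥X') : JZero N'))
    (v : Nat.Primes) (hvP : (v : ℕ) ∈ P) (hvF : (v : ℕ) ∈ Pfin W (rbarB b) L₀) (hvp : (v : ℕ) ≠ p)
    (hns : FrobNonScalar (rbarB b) (v : ℕ)) (hv2 : ¬ (v : ℕ) ^ 2 ∣ N') :
    ∃ bv : R, pi0 πE bv = 0 ∧
      (∀ I : Ideal R, bv ∈ I → ∃ M : M₂ R, IsUnit (M.map (pi0 πE)) ∧
        ∀ s ∈ decomp v, ConjConst ℤ (Y.annihilator ⊔ I) M (ρ s)) ∧
      Nat.card ↥(B1loc (adRep (mapK (kM p) (rbarB b))) v) * Nat.card (kM p) ^ 1 ≤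
        Nat.card (kM p) ^ 3 ∧
      ∀ β' : R, bv ∣ β' → ∀ G' : Set (JZero N'),
        (∀ y ∈ G', ∃ x₁ : ↥X', ((β' • x₁ : ↥X') : JZero N') = y) →
        LocSt (v : ℕ) (eps (v : ℕ)) G' ∧ LocUnip (v : ℕ) G' := by
  have hA := liesOverPrime_primeLocalPlace v
  obtain ⟨φ, hφ⟩ := S54.exists_isFrobeniusAt_of_liesOverPrime v.2 _ hA
  have hram := X.not_ram_of_mem_Pfin hvF hvp
  have hur : ∀ σ ∈ inert v, rbarB b σ = 1 := fun σ hσ => unram_of_not_ram hram _ hA σ hσ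
  have hΔ := X.dvd_of_mem_Pfin hvF
  have hε : eps (v : ℕ) * eps (v : ℕ) = 1 := by
    rcases (X.sgn v v.2 hvp hΔ).1 with e | e <;> rw [e] <;> norm_num
  obtain ⟨bv, S⟩ := exists_softAt_top X.C C H v hvp hv2 hram hε (locSt_EM B X.sgn v.2 hvp hΔ) hφ
    (hns _ hA φ hφ)
  have hYS' : ∀ y ∈ Y, ((y : ↥X') : JZero N') ∈ u '' (G : Set (JZero (lvl Lc (extP qv) t))) :=
    fun y hy => by
      obtain ⟨w, hw, e⟩ := hYS y hy
      exact ⟨w, hw, e⟩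
  have hst := (hG.st v hvP hvp).1.image u hu
  refine ⟨bv, S.pi0_b, fun I hI => S.strict_raised_sub H Y hYG hYS' hst I hI,
    X.C.weight_one v hur hφ (hns _ hA φ hφ), fun β' hβ G' hG' => ⟨?_, ?_⟩⟩
  · refine S.locSt_out_b H hβ (U := Set.univ) (fun _ _ _ => Set.mem_univ _) fun y hy => ?_
    obtain ⟨x₁, e⟩ := hG' y hy
    exact ⟨x₁, Set.mem_univ _, e⟩
  · refine (S.locUnip_out H).mono fun y hy => ?_
    obtain ⟨x₁, rfl⟩ := hG' y hy
    exact (β' • x₁).2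

end Fermat.Agent.ML.Hard
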