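/-
ML / HARD / Mid / Out : the fields `emb` and `out` of `Hard.MidData` (`ML/Hard/MidSpec.lean`) as stand-alone lemmas.

* `Mid.lvl_shape`     : `lvl Lc' (extP qv) t = M * v`, `¬ v ∣ M`, `4 ∣ M` for every odd raised prime `v` (the level hypotheses of `hardAt_of`);
* `Mid.hardAt_cell`   : `HardAt b (lvl Lc' ..) v (eps v)` for every odd raised hard prime `v ≠ p`;
* `Mid.emb_of_c`      : the field `emb`, for `c = (tr ρ φ - ε (q+1)) * unit`;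
* `Mid.st_new_hard`   : `LocSt q ε` on every subset of `V ∩ ker (dnE h 0) ∩ ker (dnE h 1)`, `q` hard;
* `Mid.out_field`     : the field `out` VERBATIM from `LocSt` at the old primes on `β' V`, `LocSt q` on `U'`, and the facts at `2` on `β' V`.
-/
import Fermat.Agent.ML.Hard.MidSpec
import Fermat.Agent.ML.Hard.LocOut
import Fermat.Agent.ML.Lift.Soft.MidLoc
import Fermat.Agent.ML.Lift.Soft.OutAuto
import Fermat.Agent.ML.Lift.Inst.Geo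
import Fermat.Agent.ML.AtP.StepP.Num

set_option autoImplicit false
set_option linter.unusedSectionVars false

noncomputable section

open AlgebraicCurve ModularCurve

namespace Fermat.Agent.ML.Hard.Mid

open Fermat.Agent.RIB Fermat.Agent.RIB.Rho Fermat.Agent.GAL Fermat.Agent.GAL.PC Fermat.Agent.ML
  Fermat.Agent.ML.TWFree Fermat.Agent.ML.ESide Fermat.Agent.ML.Lift

local notation "Qbar" => AlgebraicClosure ℚ
local notation "GQ" => (AlgebraicClosure ℚ ≃ₐ[ℚ] AlgebraicClosure ℚ)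
local notation "M₂" => Matrix (Fin 2) (Fin 2)

/-! ### the level -/

section Level

variable {W : WeierstrassCurve ℤ} {p : ℕ} [Fact p.Prime] {T : Finset ℕ}
  {b : Module.Basis (Fin 2) (ZMod p) (TorsW W p)} {L₀ : ℕ} [NeZero L₀] {eps : ℕ → ℤ} {eP : GQ → ℤ}
  {t : ℕ} {qv : Fin t → Nat.Primes}

/-- the shape of the level at an odd raised prime. -/
theorem lvl_shape (X : LCtx W p T b L₀ eps eP) {P' : Finset ℕ} (hP' : P' ⊆ Pfin W (rbarB b) L₀)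
    (hnotT : ∀ i, ((qv i : Nat.Primes) : ℕ) ∉ T) {Lc' : ℕ} (hLc' : Lc' = cellLevel L₀ P')
    {v : ℕ} (hv : v ∈ P') (hv2 : v ≠ 2) :
    ∃ M : ℕ, lvl Lc' (extP qv) t = M * v ∧ ¬ v ∣ M ∧ 4 ∣ M := by
  have hvp : v.Prime := X.prime_of_mem_Pfin (hP' hv)
  have hvT : v ∈ T := X.mem_T_of_mem_Pfin (hP' hv)
  obtain ⟨M', hM', hodd, hsq⟩ := X.cellLevel_shape hP'
  have hvL : v ∣ Lc' := by
    rw [hLc']
    unfold cellLevel
    exact Dvd.dvd.mul_left (Finset.dvd_prod_of_mem _ (Finset.mem_erase.2 ⟨hv2, hv⟩)) _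
  have hcop4 : Nat.Coprime v 4 := by
    have : Nat.Coprime v (2 ^ 2) :=
      Nat.Coprime.pow_right 2 ((Nat.coprime_primes hvp Nat.prime_two).2 hv2)
    simpa using this
  have hnsq : ¬ v ^ 2 ∣ Lc' := by
    rw [hLc', hM']
    intro hd
    have h1 : v ^ 2 ∣ M' := (Nat.Coprime.pow_left 2 hcop4).dvd_of_dvd_mul_right hd
    have h2 : IsUnit v := hsq v (by rwa [← sq])
    exact hvp.one_lt.ne' (Nat.isUnit_iff.1 h2)
  have hnsq' : ¬ v ^ 2 ∣ lvl Lc' (extP qv) t :=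
    not_sq_dvd_lvl_of hvp (fun j h => hnotT j (h ▸ hvT)) hnsq t
  obtain ⟨M, hM⟩ := hvL.trans (dvd_lvl Lc' (extP qv) t)
  refine ⟨M, by rw [hM, mul_comm], fun hd => hnsq' ?_, ?_⟩
  · rw [hM, sq]
    exact Nat.mul_dvd_mul_left v hd
  · have h4 : 4 ∣ v * M := by
      rw [← hM]
      exact (Dvd.intro_left M' (by rw [hLc', hM'])).trans (dvd_lvl Lc' (extP qv) t)
    exact hcop4.symm.dvd_of_dvd_mul_left h4

/-- `HardAt` at every odd raised hard prime of the cell. -/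
theorem hardAt_cell (X : LCtx W p T b L₀ eps eP) {P' : Finset ℕ}
    (hP' : P' ⊆ Pfin W (rbarB b) L₀) (hnotT : ∀ i, ((qv i : Nat.Primes) : ℕ) ∉ T) {Lc' : ℕ}
    (hLc' : Lc' = cellLevel L₀ P') {v : ℕ} (hv : v ∈ P') (hv2 : v ≠ 2) (hvp : v ≠ p)
    (hs : FrobScalar (rbarB b) v) : HardAt b (lvl Lc' (extP qv) t) v (eps v) := by
  obtain ⟨M, hM, hvM, h4⟩ := lvl_shape X hP' hnotT hLc' hv hv2
  exact hardAt_of X (hP' hv) hvp hs hM hvM (Or.inl h4)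

end Level

/-! ### (EMB) -/

section Emb

variable {p : ℕ} [Fact p.Prime] {S : Set ℕ} {θ : ℕ → ℤ} {t : ℕ} {qv : Fin t → Nat.Primes}
  {N Nq q : ℕ} [NeZero N] [NeZero Nq] [NeZero q]

/-- **the field `emb` of `MidData`** for `c = (tr ρ φ - ε (q+1)) * unit`. -/
theorem emb_of_c (h : Nq = N * q) (hq : q.Prime) (hqN : ¬ q ∣ N) (hqp : q ≠ p)
    (hAP : NonEisAP p S θ) (hqS : q ∈ S) {ε : ℤ} (hε : ε * ε = 1) {a : ℕ}
    {V : AddSubgroup (JZero Nq)} {m : ℕ} [NeZero m] {R : Type} [CommRing R] [Algebra (ZMod m) R]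
    [Module R ↥V] {rE : GQ →* M₂ (ZMod m)} {πE : R →ₐ[ZMod m] ZMod m} {ρ : GQ →* M₂ R}
    {Φ : M₂ R →ₐ[R] Module.End R ↥V} (H : Fermat.Agent.ML.Rho.IsRhoK Nq m V rE πE ρ Φ)
    {A : ValuationSubring Qbar} (hA : A.LiesOverPrime q) {φ : GQ} (hφ : A.IsFrobeniusAt φ q)
    (hdet : (ρ φ).det = (q : R)) {c un : R} (hun : IsUnit un)
    (hc : c = ((ρ φ).trace - (ε : R) * ((q : R) + 1)) * un) :
    ∀ v ∈ cellU p S θ N qv a, ∀ hv : upE h 0 v ∈ V, c • (⟨upE h 0 v, hv⟩ : ↥V) = 0 →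
      ∀ k, dnE h k (upE h 0 v - ε • upE h 1 v) = 0 := by
  intro v hvU hv hcv k
  have hp : p.Prime := Fact.out
  have hvU' := mem_cellU.1 hvU
  have h0 : ((ρ φ).trace - (ε : R) * ((q : R) + 1)) • (⟨upE h 0 v, hv⟩ : ↥V) = 0 := by
    obtain ⟨w, hw⟩ := hun
    have h1 : (↑w⁻¹ : R) • (c • (⟨upE h 0 v, hv⟩ : ↥V)) = 0 := by rw [hcv, smul_zero]
    rw [smul_smul, hc, ← hw] at h1
    have h2 : (↑w⁻¹ : R) * (((ρ φ).trace - (ε : R) * ((q : R) + 1)) * (w : R)) =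
        (ρ φ).trace - (ε : R) * ((q : R) + 1) := by
      rw [mul_comm, mul_assoc, Units.mul_inv, mul_one]
    rwa [h2] at h1
  have hfr := Raise.mid_frob H (v := ⟨q, hq⟩) (ε := ε) (φ := φ) hdet ⟨upE h 0 v, hv⟩ h0
  have hfr' : φ • upE h 0 v + q • φ⁻¹ • upE h 0 v = (ε * ((q : ℤ) + 1)) • upE h 0 v := hfr
  refine dnE_embE_of_frob hq hqN hp hqp hε h hA hφ ⟨a, hvU'.2.1⟩ ?_ k
  have hc' : upE h 0 (φ • v + q • φ⁻¹ • v - (ε * ((q : ℤ) + 1)) • v) = 0 := by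
    rw [map_sub, map_add, map_nsmul, map_zsmul, upE_smul, upE_smul, sub_eq_zero]
    exact hfr'
  have hmem : φ • v + q • φ⁻¹ • v - (ε * ((q : ℤ) + 1)) • v ∈ cellU p S θ N qv a :=
    AddSubgroup.sub_mem _ (AddSubgroup.add_mem _ (smul_mem_cellU φ hvU)
      (AddSubgroup.nsmul_mem _ (smul_mem_cellU φ⁻¹ hvU) q)) (AddSubgroup.zsmul_mem _ hvU _)
  exact sub_eq_zero.1 (upE_injOn hp hq hqN hAP hqS h 0 (mem_cellU.1 hmem).1 hc')

end Emb

/-! ### the new hard prime -/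

section New

variable {W : WeierstrassCurve ℤ} {p : ℕ} [Fact p.Prime]
  {b : Module.Basis (Fin 2) (ZMod p) (TorsW W p)} {K : ℕ}
  {B : Module.Basis (Fin 2) (ZMod (p ^ (K + 1))) (TorsW W (p ^ (K + 1)))} {N Nq q : ℕ} [NeZero N]
  [NeZero Nq] [NeZero q]
  {V : AddSubgroup (JZero Nq)} {R : Type} [CommRing R] [Algebra (ZMod (p ^ (K + 1))) R]
  [Module R ↥V] {πE : R →ₐ[ZMod (p ^ (K + 1))] ZMod (p ^ (K + 1))} {ρ : GQ →* M₂ R}
  {Φ : M₂ R →ₐ[R] Module.End R ↥V}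

/-- `LocSt q ε` on the `q`-new part, `q` hard. -/
theorem st_new_hard [Finite R] (C : TopCtx W p b K B Nq V)
    (H : Fermat.Agent.ML.Rho.IsRhoK Nq (p ^ (K + 1)) V (rEB B) πE ρ Φ) {ε : ℤ}
    (D : HardAt b Nq q ε) (h : Nq = N * q) (hqN : ¬ q ∣ N) (G' : Set (JZero Nq))
    (hV : ∀ x ∈ G', x ∈ V) (hd : ∀ x ∈ G', ∀ c, dnE h c x = 0) : LocSt q ε G' :=
  locSt_new_hard C H D G' hV fun x hx _ hA _ hφ =>
    Raise.mid_rel D.hq Fact.out D.hqp hqN h hA hφ (C.ptors H (hV x hx)) (hd x hx)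

end New

/-! ### the field `out` -/

section Out

variable {W : WeierstrassCurve ℤ} {p : ℕ} [Fact p.Prime] {T : Finset ℕ}
  {b : Module.Basis (Fin 2) (ZMod p) (TorsW W p)} {L₀ : ℕ} [NeZero L₀] {eps : ℕ → ℤ} {eP : GQ → ℤ}
  {P : Finset ℕ} {q : ℕ} {Lc Lc' : ℕ} [NeZero Lc'] {t : ℕ} {qv : Fin t → Nat.Primes}

/-- **the field `out` of `MidData`** (VERBATIM), from `LocSt` at the old primes and the facts at `2` on `β' V`, and `LocSt q` on `U'`. -/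
theorem out_field (X : LCtx W p T b L₀ eps eP)
    (hP : P ⊆ Pfin W (rbarB b) L₀) (hq : q ∈ Pfin W (rbarB b) L₀) (hqP : q ∉ P) (hq2 : q ≠ 2)
    (hLc : Lc = cellLevel L₀ P) (hL : Lc' = Lc * q)
    (hnotT : ∀ i, ((qv i : Nat.Primes) : ℕ) ∉ T)
    {V U' : AddSubgroup (JZero (lvl Lc' (extP qv) t))}
    (hVt : ∀ x ∈ V, ∃ n : ℕ, p ^ n • x = 0)
    {R : Type} [CommRing R] [Module R ↥V] {β' : R}
    (hold : ∀ q' ∈ P, q' ≠ p → LocSt q' (eps q')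
      {x : JZero (lvl Lc' (extP qv) t) | ∃ x₁ : ↥V, ((β' • x₁ : ↥V) : JZero _) = x})
    (hnew : q ≠ p → LocSt q (eps q) (U' : Set (JZero (lvl Lc' (extP qv) t))))
    (ur2 : 2 ∉ P → ¬ Ram (rbarB b) 2 → LocUr 2
      {x : JZero (lvl Lc' (extP qv) t) | ∃ x₁ : ↥V, ((β' • x₁ : ↥V) : JZero _) = x})
    (unip2 : 2 ∈ P ∨ Ram (rbarB b) 2 → LocUnip 2
      {x : JZero (lvl Lc' (extP qv) t) | ∃ x₁ : ↥V, ((β' • x₁ : ↥V) : JZero _) = x}) :
    ∀ G' : AddSubgroup (JZero (lvl Lc' (extP qv) t)), (∀ g : GQ, ∀ x ∈ G', g • x ∈ G') → G' ≤ U' →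
    (∀ x ∈ G', ∃ x₁ : ↥V, (x₁ : JZero (lvl Lc' (extP qv) t)) ∈ U' ∧
      ((β' • x₁ : ↥V) : JZero (lvl Lc' (extP qv) t)) = x) →
    (∀ q' ∈ insert q P, q' ≠ p →
      LocSt q' (eps q') (G' : Set (JZero (lvl Lc' (extP qv) t))) ∧
        LocUnip q' (G' : Set (JZero (lvl Lc' (extP qv) t)))) ∧
    (2 ∉ insert q P → ¬ Ram (rbarB b) 2 → LocUr 2 (G' : Set (JZero (lvl Lc' (extP qv) t)))) ∧
    (Ram (rbarB b) 2 → LocUnip 2 (G' : Set (JZero (lvl Lc' (extP qv) t)))) := by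
  intro G' _ hGU hout
  have hsub : (G' : Set (JZero (lvl Lc' (extP qv) t))) ⊆
      {x : JZero (lvl Lc' (extP qv) t) | ∃ x₁ : ↥V, ((β' • x₁ : ↥V) : JZero _) = x} := by
    intro x hx
    obtain ⟨x₁, -, h⟩ := hout x hx
    exact ⟨x₁, h⟩
  have hmain := X.midOut_out hP hq hqP hq2 hLc hL hnotT
    (G' : Set (JZero (lvl Lc' (extP qv) t)))
    (fun x hx => by
      obtain ⟨x₁, h⟩ := hsub hx
      exact h ▸ hVt _ (β' • x₁).2)
    (fun q' hq' hq'p => by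
      rcases Finset.mem_insert.1 hq' with h | h
      · subst h
        exact (hnew hq'p).mono hGU
      · exact (hold q' h hq'p).mono hsub)
    (fun h2 hr => (ur2 h2 hr).mono hsub) (fun h2 => (unip2 h2).mono hsub)
  refine ⟨hmain.1, fun h2 hr => (ur2 (fun h => h2 (Finset.mem_insert_of_mem h)) hr).mono hsub,
    fun hr => (unip2 (Or.inr hr)).mono hsub⟩

end Out

/-! ### the same in the frame of `MidFStmt` -/

section Frame

variable {W : WeierstrassCurve ℤ} {p : ℕ} [Fact p.Prime] {T : Finset ℕ}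
  {b : Module.Basis (Fin 2) (ZMod p) (TorsW W p)} {L₀ : ℕ} [NeZero L₀] {eps : ℕ → ℤ} {eP : GQ → ℤ}
  {P : Finset ℕ} {q : ℕ} [NeZero q] {Lc Lc' : ℕ} [NeZero Lc] [NeZero Lc'] {t : ℕ}
  {qv : Fin t → Nat.Primes} {F₀ C₀ a m n K : ℕ}
  {B : Module.Basis (Fin 2) (ZMod (p ^ (K + 1))) (TorsW W (p ^ (K + 1)))}
  {R : Type} [CommRing R] [Algebra (ZMod (p ^ (K + 1))) R]
  [Module R ↥(cellV p (↑(cutS T qv) : Set ℕ) W.apOfModel (lvl Lc' (extP qv) t) (K + 1))]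
  {πE : R →ₐ[ZMod (p ^ (K + 1))] ZMod (p ^ (K + 1))} {ρ : GQ →* M₂ R}
  {Φ : M₂ R →ₐ[R] Module.End R
    ↥(cellV p (↑(cutS T qv) : Set ℕ) W.apOfModel (lvl Lc' (extP qv) t) (K + 1))}

/-- the Taylor–Wiles primes of a frame are outside `T`. -/
theorem frame_notT (X : LCtx W p T b L₀ eps eP)
    (hF : Frm p X.C.hp2 T W.apOfModel (rbarB b) t F₀ C₀ a m n K qv) (i : Fin t) :
    ((qv i : Nat.Primes) : ℕ) ∉ T := fun h => X.ne_qv hF h i rfl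

/-- `HardAt` at the new prime and at the old hard primes, in the frame of `MidFStmt`. -/
theorem hardAt_frame (X : LCtx W p T b L₀ eps eP)
    (hF : Frm p X.C.hp2 T W.apOfModel (rbarB b) t F₀ C₀ a m n K qv)
    (hP : P ⊆ Pfin W (rbarB b) L₀) (hq : q ∈ Pfin W (rbarB b) L₀) (hqP : q ∉ P) (hq2 : q ≠ 2)
    (hLc : Lc = cellLevel L₀ P) (hL : Lc' = Lc * q) {v : ℕ} (hv : v ∈ insert q P) (hv2 : v ≠ 2)
    (hvp : v ≠ p) (hs : FrobScalar (rbarB b) v) : HardAt b (lvl Lc' (extP qv) t) v (eps v) :=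
  hardAt_cell X (Finset.insert_subset hq hP) (frame_notT X hF)
    (by rw [cellLevel_insert L₀ hq2 hqP, hL, hLc]) hv hv2 hvp hs

/-- **the field `emb` of `MidData`** at a hard (or soft) prime `q ≠ p`, VERBATIM, `ε := eps q`. -/
theorem emb_frame (X : LCtx W p T b L₀ eps eP)
    (hF : Frm p X.C.hp2 T W.apOfModel (rbarB b) t F₀ C₀ a m n K qv)
    (hP : P ⊆ Pfin W (rbarB b) L₀) (hq : q ∈ Pfin W (rbarB b) L₀) (hqP : q ∉ P) (hq2 : q ≠ 2)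
    (hqp : q ≠ p) (hε : eps q * eps q = 1) (hLc : Lc = cellLevel L₀ P) (hL : Lc' = Lc * q)
    (C : TopCtx W p b K B (lvl Lc' (extP qv) t)
      (cellV p (↑(cutS T qv) : Set ℕ) W.apOfModel (lvl Lc' (extP qv) t) (K + 1)))
    (H : Fermat.Agent.ML.Rho.IsRhoK (lvl Lc' (extP qv) t) (p ^ (K + 1))
      (cellV p (↑(cutS T qv) : Set ℕ) W.apOfModel (lvl Lc' (extP qv) t) (K + 1)) (rEB B) πE ρ Φ)
    {A : ValuationSubring Qbar} (hA : A.LiesOverPrime q) {φ : GQ} (hφ : A.IsFrobeniusAt φ q)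
    {c un : R} (hun : IsUnit un)
    (hc : c = ((ρ φ).trace - ((eps q : ℤ) : R) * ((q : R) + 1)) * un) :
    ∀ v ∈ cellU p (↑(cutS T qv) : Set ℕ) W.apOfModel (lvl Lc (extP qv) t) qv a,
      ∀ hv : upE (lvl_mul_q hL qv) 0 v ∈
        cellV p (↑(cutS T qv) : Set ℕ) W.apOfModel (lvl Lc' (extP qv) t) (K + 1),
      c • (⟨upE (lvl_mul_q hL qv) 0 v, hv⟩ :
        ↥(cellV p (↑(cutS T qv) : Set ℕ) W.apOfModel (lvl Lc' (extP qv) t) (K + 1))) = 0 →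
      ∀ k, dnE (lvl_mul_q hL qv) k
        (upE (lvl_mul_q hL qv) 0 v - eps q • upE (lvl_mul_q hL qv) 1 v) = 0 :=
  emb_of_c (lvl_mul_q hL qv) (X.prime_of_mem_Pfin hq) (X.not_dvd_lvl_cell hF hP hq hq2 hqP hLc)
    hqp (X.C.nonEis (cutS T qv)) (Finset.mem_coe.2 (subset_cutS T qv (X.mem_T_of_mem_Pfin hq))) hε H
    hA hφ (C.det_frob H (X.prime_of_mem_Pfin hq) hqp hA hφ) hun hc

/-- `LocSt q (eps q)` on `U' = cellK`, `q` hard. -/
theorem new_frame [Finite R] (X : LCtx W p T b L₀ eps eP)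
    (hF : Frm p X.C.hp2 T W.apOfModel (rbarB b) t F₀ C₀ a m n K qv)
    (hP : P ⊆ Pfin W (rbarB b) L₀) (hq : q ∈ Pfin W (rbarB b) L₀) (hqP : q ∉ P) (hq2 : q ≠ 2)
    (hqp : q ≠ p) (hs : FrobScalar (rbarB b) q) (hLc : Lc = cellLevel L₀ P) (hL : Lc' = Lc * q)
    (C : TopCtx W p b K B (lvl Lc' (extP qv) t)
      (cellV p (↑(cutS T qv) : Set ℕ) W.apOfModel (lvl Lc' (extP qv) t) (K + 1)))
    (H : Fermat.Agent.ML.Rho.IsRhoK (lvl Lc' (extP qv) t) (p ^ (K + 1))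
      (cellV p (↑(cutS T qv) : Set ℕ) W.apOfModel (lvl Lc' (extP qv) t) (K + 1)) (rEB B) πE ρ Φ) :
    LocSt q (eps q) (cellK p (↑(cutS T qv) : Set ℕ) W.apOfModel qv a (lvl_mul_q hL qv) :
      Set (JZero (lvl Lc' (extP qv) t))) :=
  st_new_hard C H (hardAt_frame X hF hP hq hqP hq2 hLc hL (Finset.mem_insert_self q P) hq2 hqp hs)
    (lvl_mul_q hL qv) (X.not_dvd_lvl_cell hF hP hq hq2 hqP hLc) _
    (fun x hx => by
      have h1 := mem_cellU.1 (mem_cellK.1 hx).1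
      refine mem_cellV.2 ⟨h1.1, ?_⟩
      obtain ⟨d, hd⟩ : ∃ d, K + 1 = a + d :=
        Nat.exists_eq_add_of_le (hF.hK.trans (Nat.le_succ K))
      rw [hd, pow_add, mul_comm, mul_smul, h1.2.1, smul_zero])
    (fun x hx => (mem_cellK.1 hx).2)

/-- **the field `out` of `MidData`** at a hard prime `q ≠ p`, VERBATIM, from the facts on `β' V` at the OLD primes and at `2`. -/
theorem out_frame [Finite R] (X : LCtx W p T b L₀ eps eP)
    (hF : Frm p X.C.hp2 T W.apOfModel (rbarB b) t F₀ C₀ a m n K qv)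
    (hP : P ⊆ Pfin W (rbarB b) L₀) (hq : q ∈ Pfin W (rbarB b) L₀) (hqP : q ∉ P) (hq2 : q ≠ 2)
    (hqp : q ≠ p) (hs : FrobScalar (rbarB b) q) (hLc : Lc = cellLevel L₀ P) (hL : Lc' = Lc * q)
    (C : TopCtx W p b K B (lvl Lc' (extP qv) t)
      (cellV p (↑(cutS T qv) : Set ℕ) W.apOfModel (lvl Lc' (extP qv) t) (K + 1)))
    (H : Fermat.Agent.ML.Rho.IsRhoK (lvl Lc' (extP qv) t) (p ^ (K + 1))
      (cellV p (↑(cutS T qv) : Set ℕ) W.apOfModel (lvl Lc' (extP qv) t) (K + 1)) (rEB B) πE ρ Φ)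
    {β' : R}
    (hold : ∀ q' ∈ P, q' ≠ p → LocSt q' (eps q') {x : JZero (lvl Lc' (extP qv) t) | ∃ x₁ :
      ↥(cellV p (↑(cutS T qv) : Set ℕ) W.apOfModel (lvl Lc' (extP qv) t) (K + 1)),
        ((β' • x₁ : ↥(cellV p (↑(cutS T qv) : Set ℕ) W.apOfModel (lvl Lc' (extP qv) t) (K + 1))) :
          JZero _) = x})
    (ur2 : 2 ∉ P → ¬ Ram (rbarB b) 2 → LocUr 2 {x : JZero (lvl Lc' (extP qv) t) | ∃ x₁ :
      ↥(cellV p (↑(cutS T qv) : Set ℕ) W.apOfModel (lvl Lc' (extP qv) t) (K + 1)),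
        ((β' • x₁ : ↥(cellV p (↑(cutS T qv) : Set ℕ) W.apOfModel (lvl Lc' (extP qv) t) (K + 1))) :
          JZero _) = x})
    (unip2 : 2 ∈ P ∨ Ram (rbarB b) 2 → LocUnip 2 {x : JZero (lvl Lc' (extP qv) t) | ∃ x₁ :
      ↥(cellV p (↑(cutS T qv) : Set ℕ) W.apOfModel (lvl Lc' (extP qv) t) (K + 1)),
        ((β' • x₁ : ↥(cellV p (↑(cutS T qv) : Set ℕ) W.apOfModel (lvl Lc' (extP qv) t) (K + 1))) :
          JZero _) = x}) :
    ∀ G' : AddSubgroup (JZero (lvl Lc' (extP qv) t)), (∀ g : GQ, ∀ x ∈ G', g • x ∈ G') →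
      G' ≤ cellK p (↑(cutS T qv) : Set ℕ) W.apOfModel qv a (lvl_mul_q hL qv) →
    (∀ x ∈ G', ∃ x₁ : ↥(cellV p (↑(cutS T qv) : Set ℕ) W.apOfModel (lvl Lc' (extP qv) t) (K + 1)),
      (x₁ : JZero (lvl Lc' (extP qv) t)) ∈
        cellK p (↑(cutS T qv) : Set ℕ) W.apOfModel qv a (lvl_mul_q hL qv) ∧
      ((β' • x₁ : ↥(cellV p (↑(cutS T qv) : Set ℕ) W.apOfModel (lvl Lc' (extP qv) t) (K + 1))) :
        JZero (lvl Lc' (extP qv) t)) = x) →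
    (∀ q' ∈ insert q P, q' ≠ p →
      LocSt q' (eps q') (G' : Set (JZero (lvl Lc' (extP qv) t))) ∧
        LocUnip q' (G' : Set (JZero (lvl Lc' (extP qv) t)))) ∧
    (2 ∉ insert q P → ¬ Ram (rbarB b) 2 → LocUr 2 (G' : Set (JZero (lvl Lc' (extP qv) t)))) ∧
    (Ram (rbarB b) 2 → LocUnip 2 (G' : Set (JZero (lvl Lc' (extP qv) t)))) :=
  out_field X hP hq hqP hq2 hLc hL (frame_notT X hF) (fun _ hx => ⟨K + 1, (mem_cellV.1 hx).2⟩) hold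
    (fun _ => new_frame X hF hP hq hqP hq2 hqp hs hLc hL C H) ur2 unip2

end Frame

end Fermat.Agent.ML.Hard.Mid
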