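import Fermat.Agent.ML.Hard.Mid.Data
import Fermat.Agent.ML.Gen.Stage

/-!
# ML / Hard / Mid / TwoSpec : the contract at the prime `2` of the middle block of a raising step in the F-form

The F-analogue of `Lift.MidTwoStmt` (`ML/Lift/Inst/MidTwo.lean`) : the multiplier at `2` is a POLYNOMIAL in the variable modulo `Ann Y`.

* `Out2 V rbar0 P ε be` : the fields of `IsCell` at `2` on every set of elements `β' • x₁`, `be ∣ β'`;
* `TwoFStmt` : a static integer `N2 ≠ 0`; in the frame of a step, for a stage module `Y` :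
  either no variable (`be0 ≡ N2` modulo `Ann Y`, and `2 ∈ P → Ram`), or one variable of weight `1` (`PkgOne` at `twoP`, `P1(pt) = N2`).
-/

set_option autoImplicit false
set_option linter.unusedSectionVars false

noncomputable section

open AlgebraicCurve ModularCurve

namespace Fermat.Agent.ML.Hard

open Fermat.Agent.RIB Fermat.Agent.RIB.Rho Fermat.Agent.ML Fermat.Agent.ML.ESide Fermat.Agent.S56
  Fermat.Agent.S56.Gen ExtCitation Fermat.Agent.ML.Lift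
open CFT (decomp)

local notation "GQ" => (AlgebraicClosure ℚ ≃ₐ[ℚ] AlgebraicClosure ℚ)
local notation "M₂" => Matrix (Fin 2) (Fin 2)

/-- (OUT) at `2`. -/
def Out2 {N' : ℕ} [NeZero N'] (V : AddSubgroup (JZero N')) {R : Type} [CommRing R] [Module R ↥V]
    {p : ℕ} (rbar0 : GQ →* M₂ (ZMod p)) (P : Finset ℕ) (ε : ℤ) (be : R) : Prop :=
  ∀ β' : R, be ∣ β' → ∀ S : Set (JZero N'),
    (∀ y ∈ S, ∃ x₁ : ↥V, ((β' • x₁ : ↥V) : JZero N') = y) →
    (2 ∈ P → LocSt 2 ε S ∧ LocUnip 2 S) ∧ (2 ∉ P → ¬ Ram rbar0 2 → LocUr 2 S) ∧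
    (Ram rbar0 2 → LocUnip 2 S)

/-- **the contract at the prime `2`**, F-form. -/
def TwoFStmt : Prop :=
  ∀ (W : WeierstrassCurve ℤ) (p : ℕ) [Fact p.Prime] (T : Finset ℕ)
    (b : Module.Basis (Fin 2) (ZMod p) (TorsW W p)) (L₀ : ℕ) [NeZero L₀] (eps : ℕ → ℤ)
    (eP : GQ → ℤ) (_X : LCtx W p T b L₀ eps eP) (P : Finset ℕ), P ⊆ Pfin W (rbarB b) L₀ →
    ∃ N2 : ℤ, N2 ≠ 0 ∧
    ∀ (K N' : ℕ) [NeZero N'] (V : AddSubgroup (JZero N'))
      (B : Module.Basis (Fin 2) (ZMod (p ^ (K + 1))) (TorsW W (p ^ (K + 1)))),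
      TopCtx W p b K B N' V →
      ∀ (R : Type) [CommRing R] [IsLocalRing R] [Finite R] [Algebra (ZMod (p ^ (K + 1))) R]
        [Module R ↥V] (πE : R →ₐ[ZMod (p ^ (K + 1))] ZMod (p ^ (K + 1))) (ρ : GQ →* M₂ R)
        (Φ : M₂ R →ₐ[R] Module.End R ↥V),
        Fermat.Agent.ML.Rho.IsRhoK N' (p ^ (K + 1)) V (rEB B) πE ρ Φ →
      ∀ (Y : Submodule R ↥V),
        (∀ (g : GQ), ∀ y ∈ Y, ∀ y' : ↥V, (y' : JZero N') = g • (y : JZero N') → y' ∈ Y) →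
        ∀ (YS : Set (JZero N')), (∀ y ∈ Y, ((y : ↥V) : JZero N') ∈ YS) →
        (¬ Ram (rbarB b) 2 → 2 ∉ P → LocUr 2 YS) → (Ram (rbarB b) 2 ∨ 2 ∈ P → LocUnip 2 YS) →
        (2 ∈ P → LocSt 2 (eps 2) YS) →
        (∃ be0 : R, be0 - (N2 : R) ∈ Y.annihilator ∧ (2 ∈ P → Ram (rbarB b) 2) ∧
          Out2 V (rbarB b) P (eps 2) be0) ∨
        (∃ (u be : R) (P1 : Polynomial ℤ) (pt : ℤ), pi0 πE u = 0 ∧
          (∀ I : Ideal R, u ∈ I → ∃ M : M₂ R, IsUnit (M.map (pi0 πE)) ∧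
            ∀ σ ∈ decomp twoP, ConjConst ℤ (Y.annihilator ⊔ I) M (ρ σ)) ∧
          be - Polynomial.aeval u P1 ∈ Y.annihilator ∧ (p : ℤ) ∣ pt ∧ P1.eval pt = N2 ∧
          Nat.card ↥(B1loc (adRep (mapK (kM p) (rbarB b))) twoP) * Nat.card (kM p) ^ 1 ≤
            Nat.card (kM p) ^ 3 ∧
          Out2 V (rbarB b) P (eps 2) be)

end Fermat.Agent.ML.Hard
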