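import Fermat.Agent.ML.Hard.MidSpec
import Fermat.Agent.ML.Hard.Mid.Abs

/-!
# ML / Hard / Mid / Data : `MidData` at a NEW HARD prime from the per-prime packages

`midData_hard` : `mid_abs_F` + (EMB) + (OUT) ⟹ `Hard.MidData`, with the per-prime data as explicit hypotheses :

* `R1` : the OLD primes of weight one (`PkgOne`) : the raised soft primes, and `2` if it carries a variable;
* `Hs` : the OLD (raised) hard primes (`PkgHard`);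
* `be0` : the factor without variable (at `2`);
* the NEW hard prime : three variables `yn`, `c ≡ y1 (y1 - d) - y0 y2`.
-/

set_option autoImplicit false
set_option linter.unusedSectionVars false

noncomputable section

open AlgebraicCurve ModularCurve MvPolynomial

namespace Fermat.Agent.ML.Hard

open Fermat.Agent.RIB Fermat.Agent.RIB.Rho Fermat.Agent.GAL Fermat.Agent.GAL.PC Fermat.Agent.ML
  Fermat.Agent.ML.TWFree Fermat.Agent.ML.ESide Fermat.Agent.ML.Lift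

local notation "Qbar" => AlgebraicClosure ℚ
local notation "GQ" => (AlgebraicClosure ℚ ≃ₐ[ℚ] AlgebraicClosure ℚ)
local notation "M₂" => Matrix (Fin 2) (Fin 2)

/-- (OUT) at an old prime `v` : the Steinberg conditions hold on `β' V` as soon as `be ∣ β'`. -/
def OutAt {N' : ℕ} [NeZero N'] (V : AddSubgroup (JZero N')) {R : Type} [CommRing R] [Module R ↥V]
    (v : ℕ) (ε : ℤ) (be : R) : Prop :=
  ∀ β' : R, be ∣ β' → ∀ S : Set (JZero N'),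
    (∀ y ∈ S, ∃ x₁ : ↥V, ((β' • x₁ : ↥V) : JZero N') = y) → LocSt v ε S ∧ LocUnip v S

/-- the polynomial of `c` at a new hard prime. -/
def newPc (d : ℤ) : MvPolynomial (Fin 3) ℤ := X 1 * (X 1 - C d) - X 0 * X 2

theorem aeval_newPc {A : Type*} [CommRing A] (y : Fin 3 → A) (d : ℤ) :
    aeval y (newPc d) = y 1 * (y 1 - (d : A)) - y 0 * y 2 := by
  simp [newPc]

theorem aeval_zero_newPc (d : ℤ) : aeval (fun _ : Fin 3 => (0 : ℤ)) (newPc d) = 0 := by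
  simp [newPc]

/-- weakening the exponent. -/
theorem not_pow_dvd_of_le {p : ℕ} {f f' : ℕ} (h : f' ≤ f) {n : ℤ} (hn : ¬ (p : ℤ) ^ (f' + 1) ∣ n) :
    ¬ (p : ℤ) ^ (f + 1) ∣ n := fun hd => hn ((pow_dvd_pow _ (by omega)).trans hd)

variable {p : ℕ} [Fact p.Prime] {rbar0 : GQ →* M₂ (ZMod p)} {eps : ℕ → ℤ} {P : Finset ℕ}
  {q t : ℕ} [NeZero q] {N N' : ℕ} [NeZero N] [NeZero N'] {h : N' = N * q}
  {U : AddSubgroup (JZero N)} {V U' : AddSubgroup (JZero N')}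
  {R : Type} [CommRing R] [Module R ↥V] {π0 : R →+* ZMod p} {ρ : GQ →* M₂ R}

/-- **`MidData` at a new hard prime.** -/
theorem midData_hard (Gt : Submodule R ↥V) (R1 Hs : Finset Nat.Primes)
    (u be : Nat.Primes → R) (P1 : Nat.Primes → Polynomial ℤ) (ptv : Nat.Primes → ℤ)
    (f : Nat.Primes → ℕ)
    (pkg1 : ∀ v ∈ R1, PkgOne p π0 ρ Gt v (u v) (be v) (P1 v) (ptv v) (f v))
    (xv : Nat.Primes → Fin 6 → R) (Dv : Nat.Primes → ℤ)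
    (pkgH : ∀ v ∈ Hs, PkgHard p π0 ρ Gt v (xv v) (Dv v))
    (be0 : R) (N0 : ℤ) (f0 : ℕ) (hbe0 : be0 - (N0 : R) ∈ Gt.annihilator)
    (hN0 : ¬ (p : ℤ) ^ (f0 + 1) ∣ N0)
    (yn : Fin 3 → R) (hyn : ∀ j, π0 (yn j) = 0)
    (hgen : ∀ I : Ideal R, (∀ a ∈ I, π0 a = 0) → (∀ v ∈ R1, u v ∈ I) →
      (∀ v ∈ Hs, ∀ j, xv v j ∈ I) → (∀ j, yn j ∈ I) →
      ∃ (g : ℕ) (x : Fin g → R), R1.card + 3 * Hs.card + 3 + g ≤ t ∧ (∀ i, π0 (x i) = 0) ∧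
        RingHom.ker π0 ≤ Gt.annihilator ⊔ I ⊔ Ideal.span (Set.range x) ⊔ Ideal.span {(p : R)})
    (c : R) (d : ℤ) (hc : c - (yn 1 * (yn 1 - (d : R)) - yn 0 * yn 2) ∈ Gt.annihilator)
    (ε : ℤ)
    (hemb : ∀ v ∈ U, ∀ hv : upE h 0 v ∈ V, c • (⟨upE h 0 v, hv⟩ : ↥V) = 0 →
      ∀ k, dnE h k (upE h 0 v - ε • upE h 1 v) = 0)
    -- (OUT)
    (hPdec : ∀ q' ∈ P, q' ≠ p → q' = 2 ∨ (∃ v ∈ Hs, (v : ℕ) = q') ∨ (∃ v ∈ R1, (v : ℕ) = q'))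
    (houtq : ∀ S : Set (JZero N'), S ⊆ (U' : Set (JZero N')) →
      LocSt q (eps q) S ∧ LocUnip q S)
    (houtH : ∀ v ∈ Hs, OutAt V (v : ℕ) (eps (v : ℕ)) (xv v 0))
    (hout1 : ∀ v ∈ R1, (v : ℕ) ≠ 2 → OutAt V (v : ℕ) (eps (v : ℕ)) (be v))
    (hout2 : ∀ β' : R, be0 ∣ β' → (∀ v ∈ R1, (v : ℕ) = 2 → be v ∣ β') → ∀ S : Set (JZero N'),
      (∀ y ∈ S, ∃ x₁ : ↥V, ((β' • x₁ : ↥V) : JZero N') = y) →
      (2 ∈ P → LocSt 2 (eps 2) S ∧ LocUnip 2 S) ∧ (2 ∉ P → ¬ Ram rbar0 2 → LocUr 2 S) ∧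
      (Ram rbar0 2 → LocUnip 2 S))
    (fs : ℕ) (hfs : f0 + Hs.card + ∑ v ∈ R1, f v ≤ fs) :
    ∃ (σ : Type) (_ : Fintype σ) (val : PV ↥Hs σ → R) (pt : σ → ℤ)
      (Pc Pβ : MvPolynomial (PV ↥Hs σ) ℤ),
      MidData p rbar0 eps P q fs t h U V U' π0 Gt ε ↥Hs σ (fun r => Dv r) val pt c
        (be0 * (∏ v ∈ Hs, xv v 0) * ∏ v ∈ R1, be v) Pc Pβ := by
  classical
  obtain ⟨σ, iσ, val, pt, Pc, Pβ, h1, h2, h3, h4, h5, h6, h7, h8, h9⟩ :=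
    mid_abs_F (t := t) Gt R1 Hs u be P1 ptv f pkg1 xv Dv pkgH be0 N0 f0 hbe0 hN0 3 yn hyn hgen c
      (newPc d) (by rw [aeval_newPc]; exact hc) (aeval_zero_newPc d)
  refine ⟨σ, iσ, val, pt, Pc, Pβ, ⟨h1, h2, h3, h4, h5, h6, h7, h8, not_pow_dvd_of_le hfs h9, hemb,
    ?_⟩⟩
  intro G' _ hG'U hG'
  set β' : R := be0 * (∏ v ∈ Hs, xv v 0) * ∏ v ∈ R1, be v with hβ'
  have hS : ∀ y ∈ (G' : Set (JZero N')), ∃ x₁ : ↥V, ((β' • x₁ : ↥V) : JZero N') = y := by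
    intro y hy
    obtain ⟨x₁, -, e⟩ := hG' y hy
    exact ⟨x₁, e⟩
  have d0 : be0 ∣ β' := Dvd.dvd.mul_right (Dvd.intro _ rfl) _
  have dH : ∀ v ∈ Hs, xv v 0 ∣ β' := fun v hv =>
    Dvd.dvd.mul_right (Dvd.dvd.mul_left (Finset.dvd_prod_of_mem (fun v => xv v 0) hv) _) _
  have d1 : ∀ v ∈ R1, be v ∣ β' := fun v hv =>
    Dvd.dvd.mul_left (Finset.dvd_prod_of_mem be hv) _
  have h2' := hout2 β' d0 (fun v hv _ => d1 v hv) (G' : Set (JZero N')) hS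
  refine ⟨fun q' hq' hq'p => ?_, fun hn hr => h2'.2.1 (fun h => hn (Finset.mem_insert_of_mem h)) hr,
    h2'.2.2⟩
  rcases Finset.mem_insert.1 hq' with rfl | hq'
  · exact houtq _ hG'U
  · by_cases hq2 : q' = 2
    · subst hq2
      exact h2'.1 hq'
    · rcases hPdec q' hq' hq'p with h0 | ⟨v, hv, rfl⟩ | ⟨v, hv, rfl⟩
      · exact absurd h0 hq2
      · exact houtH v hv β' (dH v hv) _ hS
      · exact hout1 v hv hq2 β' (d1 v hv) _ hS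

end Fermat.Agent.ML.Hard
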