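import Fermat.Agent.ML.Lift.Inst.GenSub
import Fermat.Agent.ML.Hard.Mid.Abs

/-!
# ML / Hard / Mid / Gen : (GEN) inside a raising step at a prime `q ≠ p`, in the form `hgen` of `Hard.mid_abs_F`

Setting of `ML/Lift/Inst/GenSub.lean` : `H : Rho.IsRhoK N' (p^(K+1)) X' (rEB B) πE ρ Φ` (ring at the UPPER level),
`Y ≤ X'` the stage module (`= u G`, `G` the cell at the lower level).

* `mid_gen_cell` : `genHyp_cell` + `MCtx.gen_stage` : `ker π0 ≤ Ann_R(Y) ⊔ I ⊔ (x_1, .., x_g) ⊔ (p)`, `g = t - Σ w`.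
* `hgen_hard` : the hypothesis `hgen` of `mid_abs_F` for `Rs = R1 ∪ Hs ∪ {vq}`, weights `1`, `3`, `3`.
-/

set_option autoImplicit false
set_option linter.unusedSectionVars false

noncomputable section

open AlgebraicCurve ModularCurve

namespace Fermat.Agent.ML.Hard

open Fermat.Agent.GAL Fermat.Agent.RIB Fermat.Agent.RIB.Rho Fermat.Agent.ML.ESide Fermat.Agent.ML.Rho
  Fermat.Agent.ML.Lift Fermat.Agent.S56 Fermat.Agent.S56.Flat Fermat.Agent.S56.Gen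
  Fermat.Agent.ML.FinGen Fermat.Agent.ML.StepGen

local notation "Qbar" => AlgebraicClosure ℚ
local notation "GQ" => (AlgebraicClosure ℚ ≃ₐ[ℚ] AlgebraicClosure ℚ)
local notation "M₂" => Matrix (Fin 2) (Fin 2)

variable {W : WeierstrassCurve ℤ} {p : ℕ} [Fact p.Prime] {T : Finset ℕ}
  {b : Module.Basis (Fin 2) (ZMod p) (TorsW W p)} {L₀ : ℕ} [NeZero L₀] {eps : ℕ → ℤ}
  {eP : GQ → ℤ} (X : LCtx W p T b L₀ eps eP) {t K : ℕ} {qv : Fin t → Nat.Primes}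
  {N' : ℕ} [NeZero N'] {X' : AddSubgroup (JZero N')}
  {B : Module.Basis (Fin 2) (ZMod (p ^ (K + 1))) (TorsW W (p ^ (K + 1)))}
  (C : TopCtx W p b K B N' X')
  {R : Type} [CommRing R] [Algebra (ZMod (p ^ (K + 1))) R] [Module R ↥X']
  {πE : R →ₐ[ZMod (p ^ (K + 1))] ZMod (p ^ (K + 1))} {ρ : GQ →* M₂ R}
  {Φ : M₂ R →ₐ[R] Module.End R ↥X'}
  (H : Fermat.Agent.ML.Rho.IsRhoK N' (p ^ (K + 1)) X' (rEB B) πE ρ Φ)

include H in
/-- `ker π0` is a nilpotent ideal. -/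
theorem mid_isNilpotent_ker [Finite R] : IsNilpotent (RingHom.ker (pi0 πE)) :=
  (Ideal.FG.isNilpotent_iff_le_nilradical (IsNoetherian.noetherian _)).2
    (TopCtx.ker_pi0_le_nilradical H)

variable {Lc : ℕ} [NeZero Lc] {a : ℕ} {P : Finset ℕ}
  {G : AddSubgroup (JZero (lvl Lc (extP qv) t))}
  (hG : IsCell p T W.apOfModel (rbarB b) eps eP Lc qv a P G)
  (u : JZero (lvl Lc (extP qv) t) →+ JZero N') (hu : ∀ (g : GQ) v, u (g • v) = g • u v)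

include X C H hG hu in
/-- **(GEN) inside a step**, ideal form. -/
theorem mid_gen_cell [IsLocalRing R] [Finite R]
    (F : TWGenL p (two_ne_zero_kM X.C.hp2) (mapK (kM p) (rbarB b)) (toP T) t qv)
    (hlev : ∀ q : Nat.Primes, q ∉ toP T ∪ Finset.univ.image qv → ¬ (q : ℕ) ∣ N' * p)
    (hinj : ∀ v ∈ G, u v = 0 → v = 0) (haK : a ≤ K + 1)
    (hp : ¬ p ∣ lvl Lc (extP qv) t ∨ (p ∣ Lc ∧ (p : ℤ) ∣ W.Δ))
    (Y : Submodule R ↥X')
    (hYG : ∀ (g : GQ), ∀ y ∈ Y, ∀ y' : ↥X', (y' : JZero N') = g • (y : JZero N') → y' ∈ Y)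
    (hY0 : Y ≠ ⊥) (hYS : ∀ y ∈ Y, ∃ v ∈ G, u v = ((y : ↥X') : JZero N'))
    (Rs : Finset Nat.Primes) (hRsT : Rs ⊆ toP T) (hpR : ExtCitation.pPrime p ∉ Rs)
    (hRs : ∀ v ∈ toP T, v ∉ Rs → v ≠ ExtCitation.pPrime p → (v : ℕ) ∈ P →
      Ram (rbarB b) (v : ℕ))
    (w : Nat.Primes → ℕ)
    (hw : ∀ v ∈ Rs, Nat.card ↥(B1loc (adRep (mapK (kM p) (rbarB b))) v) * Nat.card (kM p) ^ w v ≤
      Nat.card (kM p) ^ 3)
    (I : Ideal R) (hI : ∀ a ∈ I, pi0 πE a = 0)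
    (hstrict : ∀ v ∈ Rs, ∃ M : M₂ R, IsUnit (M.map (pi0 πE)) ∧
      ∀ σ ∈ CFT.decomp v, ConjConst ℤ (Y.annihilator ⊔ I) M (ρ σ)) :
    ∑ v ∈ Rs, w v ≤ t ∧ ∃ x : Fin (t - ∑ v ∈ Rs, w v) → R, (∀ i, pi0 πE (x i) = 0) ∧
      RingHom.ker (pi0 πE) ≤
        Y.annihilator ⊔ I ⊔ Ideal.span (Set.range x) ⊔ Ideal.span {(p : R)} := by
  have Hg := genHyp_cell X C H hG u hu hlev hinj haK hp Y hYG hY0 hYS Rs hRs I hI hstrict
  obtain ⟨h1, x, hx, -, h3⟩ := X.C.gen_stage F hRsT hpR w hw Hg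
  exact ⟨h1, x, hx, h3 (mid_isNilpotent_ker H)⟩

include X C H hG hu in
/-- **`hgen` of `mid_abs_F`** for the hard step : `Rs = R1 ∪ Hs ∪ {vq}`. -/
theorem hgen_hard [IsLocalRing R] [Finite R]
    (F : TWGenL p (two_ne_zero_kM X.C.hp2) (mapK (kM p) (rbarB b)) (toP T) t qv)
    (hlev : ∀ q : Nat.Primes, q ∉ toP T ∪ Finset.univ.image qv → ¬ (q : ℕ) ∣ N' * p)
    (hinj : ∀ v ∈ G, u v = 0 → v = 0) (haK : a ≤ K + 1)
    (hp : ¬ p ∣ lvl Lc (extP qv) t ∨ (p ∣ Lc ∧ (p : ℤ) ∣ W.Δ))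
    (Y : Submodule R ↥X')
    (hYG : ∀ (g : GQ), ∀ y ∈ Y, ∀ y' : ↥X', (y' : JZero N') = g • (y : JZero N') → y' ∈ Y)
    (hY0 : Y ≠ ⊥) (hYS : ∀ y ∈ Y, ∃ v ∈ G, u v = ((y : ↥X') : JZero N'))
    (R1 Hs : Finset Nat.Primes) (vq : Nat.Primes) (hd : Disjoint R1 Hs) (hq1 : vq ∉ R1)
    (hqH : vq ∉ Hs) (h1T : R1 ⊆ toP T) (hHT : Hs ⊆ toP T) (hqT : vq ∈ toP T)
    (hp1 : ExtCitation.pPrime p ∉ R1) (hpH : ExtCitation.pPrime p ∉ Hs)
    (hpq : ExtCitation.pPrime p ≠ vq)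
    (hRs : ∀ v ∈ toP T, v ∉ R1 → v ∉ Hs → v ≠ ExtCitation.pPrime p → (v : ℕ) ∈ P →
      Ram (rbarB b) (v : ℕ))
    (hw1 : ∀ v ∈ R1, Nat.card ↥(B1loc (adRep (mapK (kM p) (rbarB b))) v) * Nat.card (kM p) ^ 1 ≤
      Nat.card (kM p) ^ 3)
    (hw3 : ∀ v ∈ Hs, Nat.card ↥(B1loc (adRep (mapK (kM p) (rbarB b))) v) * Nat.card (kM p) ^ 3 ≤
      Nat.card (kM p) ^ 3)
    (hwq : Nat.card ↥(B1loc (adRep (mapK (kM p) (rbarB b))) vq) * Nat.card (kM p) ^ 3 ≤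
      Nat.card (kM p) ^ 3)
    (u1 : Nat.Primes → R)
    (st1 : ∀ v ∈ R1, ∀ I : Ideal R, u1 v ∈ I → ∃ M : M₂ R, IsUnit (M.map (pi0 πE)) ∧
      ∀ σ ∈ CFT.decomp v, ConjConst ℤ (Y.annihilator ⊔ I) M (ρ σ))
    (xv : Nat.Primes → Fin 6 → R)
    (stH : ∀ v ∈ Hs, ∀ I : Ideal R, (∀ j, xv v j ∈ I) → ∃ M : M₂ R, IsUnit (M.map (pi0 πE)) ∧
      ∀ σ ∈ CFT.decomp v, ConjConst ℤ (Y.annihilator ⊔ I) M (ρ σ))
    (yn : Fin 3 → R)
    (stq : ∀ I : Ideal R, (∀ j, yn j ∈ I) → ∃ M : M₂ R, IsUnit (M.map (pi0 πE)) ∧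
      ∀ σ ∈ CFT.decomp vq, ConjConst ℤ (Y.annihilator ⊔ I) M (ρ σ)) :
    ∀ I : Ideal R, (∀ a ∈ I, pi0 πE a = 0) → (∀ v ∈ R1, u1 v ∈ I) →
      (∀ v ∈ Hs, ∀ j, xv v j ∈ I) → (∀ j, yn j ∈ I) →
      ∃ (g : ℕ) (x : Fin g → R), R1.card + 3 * Hs.card + 3 + g ≤ t ∧
        (∀ i, pi0 πE (x i) = 0) ∧
        RingHom.ker (pi0 πE) ≤
          Y.annihilator ⊔ I ⊔ Ideal.span (Set.range x) ⊔ Ideal.span {(p : R)} := by
  classical
  intro I hI h1 hH hq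
  set Rs : Finset Nat.Primes := insert vq (R1 ∪ Hs) with hRsdef
  set w : Nat.Primes → ℕ := fun v => if v ∈ R1 then 1 else 3 with hwdef
  have hsum : ∑ v ∈ Rs, w v = R1.card + 3 * Hs.card + 3 := by
    have hq' : vq ∉ R1 ∪ Hs := by
      rw [Finset.mem_union, not_or]; exact ⟨hq1, hqH⟩
    rw [hRsdef, Finset.sum_insert hq', Finset.sum_union hd]
    have e1 : ∑ v ∈ R1, w v = R1.card := by
      rw [Finset.sum_congr rfl fun v hv => (if_pos hv : w v = 1)]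
      simp
    have e2 : ∑ v ∈ Hs, w v = 3 * Hs.card := by
      rw [Finset.sum_congr rfl fun v hv =>
        (if_neg (fun h => (Finset.disjoint_left.1 hd) h hv) : w v = 3)]
      simp [mul_comm]
    have e3 : w vq = 3 := if_neg hq1
    rw [e1, e2, e3]
    omega
  obtain ⟨hle, x, hx, hgen⟩ := mid_gen_cell X C H hG u hu F hlev hinj haK hp Y hYG hY0 hYS Rs
    (by
      intro v hv
      rcases Finset.mem_insert.1 hv with rfl | hv
      · exact hqT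
      · rcases Finset.mem_union.1 hv with hv | hv
        · exact h1T hv
        · exact hHT hv)
    (by
      intro hv
      rcases Finset.mem_insert.1 hv with hv | hv
      · exact hpq hv
      · rcases Finset.mem_union.1 hv with hv | hv
        · exact hp1 hv
        · exact hpH hv)
    (by
      intro v hv hvR hvp hvP
      have h2 : v ∉ R1 ∪ Hs := fun h => hvR (Finset.mem_insert_of_mem h)
      rw [Finset.mem_union, not_or] at h2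
      exact hRs v hv h2.1 h2.2 hvp hvP)
    w
    (by
      intro v hv
      by_cases hv1 : v ∈ R1
      · rw [show w v = 1 from if_pos hv1]; exact hw1 v hv1
      · rw [show w v = 3 from if_neg hv1]
        rcases Finset.mem_insert.1 hv with rfl | hv
        · exact hwq
        · rcases Finset.mem_union.1 hv with hv | hv
          · exact absurd hv hv1
          · exact hw3 v hv)
    I hI
    (by
      intro v hv
      rcases Finset.mem_insert.1 hv with rfl | hv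
      · exact stq I hq
      · rcases Finset.mem_union.1 hv with hv | hv
        · exact st1 v hv I (h1 v hv)
        · exact stH v hv I (hH v hv))
  refine ⟨_, x, ?_, hx, hgen⟩
  rw [hsum] at hle ⊢
  omega

end Fermat.Agent.ML.Hard
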