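import Fermat.Agent.ML.Hard.MidRec
import Fermat.Agent.ML.Hard.Mid.Abs

/-!
# ML / Hard / Mid / New : the NEW hard prime, in the shapes of `Hard.mid_abs_F`

* `newPc d = y1 (y1 - d) - y0 y2` in three variables, `aeval_newPc`, `aeval_zero_newPc` (`= hxc` of `mid_abs_F`);
* `newY yv : Fin 3 → R` : the three variables of a record `MidRec.NewHard p π0 ρ Y v ε yv c d`;
* `NewHard.hyn`, `NewHard.hc_abs`, `NewHard.strict_abs` : `hyn`, `hc` of `mid_abs_F` (`wn := 3`, `yn := newY yv`, `Pc0 := newPc d`) and the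
  strictness at the new prime in terms of `newY yv`.
-/

set_option autoImplicit false
set_option linter.unusedSectionVars false

noncomputable section

namespace Fermat.Agent.ML.Hard.Mid

open Matrix ModularCurve MvPolynomial Fermat.Agent.RIB Fermat.Agent.ML Fermat.Agent.S56 ExtCitation
  Fermat.Agent.ML.Hard.MidRec
open CFT (decomp)

local notation "GQ" => (AlgebraicClosure ℚ ≃ₐ[ℚ] AlgebraicClosure ℚ)
local notation "M₂" => Matrix (Fin 2) (Fin 2)

/-- `y1 (y1 - d) - y0 y2`. -/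
def newPc (d : ℤ) : MvPolynomial (Fin 3) ℤ := X 1 * (X 1 - C d) - X 0 * X 2

theorem aeval_newPc {A : Type*} [CommRing A] (y : Fin 3 → A) (d : ℤ) :
    aeval y (newPc d) = y 1 * (y 1 - (d : A)) - y 0 * y 2 := by
  simp [newPc]

theorem aeval_zero_newPc (d : ℤ) : aeval (fun _ : Fin 3 => (0 : ℤ)) (newPc d) = 0 := by
  rw [aeval_newPc]; ring

/-- the three variables of the new hard prime. -/
def newY {R : Type*} (yv : ℕ → R) : Fin 3 → R := fun j => yv (j : ℕ)

variable {N : ℕ} [NeZero N] {X : AddSubgroup (JZero N)} {R : Type} [CommRing R] [Module R ↥X]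
  {p : ℕ} {π0 : R →+* ZMod p} {ρ : GQ →* M₂ R} {Y : Submodule R ↥X} {v : Nat.Primes} {ε : ℤ}
  {yv : ℕ → R} {c : R} {d : ℤ}

theorem NewHard.hyn (Hn : NewHard p π0 ρ Y v ε yv c d) (j : Fin 3) : π0 (newY yv j) = 0 :=
  Hn.pi0 _

theorem NewHard.c_eq (Hn : NewHard p π0 ρ Y v ε yv c d) : c = aeval (newY yv) (newPc d) := by
  rw [aeval_newPc, Hn.hc]; rfl

theorem NewHard.hc_abs (Hn : NewHard p π0 ρ Y v ε yv c d) :
    c - aeval (newY yv) (newPc d) ∈ Y.annihilator := by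
  rw [← NewHard.c_eq Hn, sub_self]; exact Submodule.zero_mem _

theorem NewHard.strict_abs (Hn : NewHard p π0 ρ Y v ε yv c d) (I : Ideal R)
    (hI : ∀ j, newY yv j ∈ I) : ∃ M : M₂ R, IsUnit (M.map π0) ∧
      ∀ s ∈ decomp v, ConjConst ℤ (Y.annihilator ⊔ I) M (ρ s) :=
  Hn.strict I fun j hj => hI ⟨j, hj⟩

end Fermat.Agent.ML.Hard.Mid
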