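import Fermat.Agent.ML.At2.Cell2Pol
import Fermat.Agent.ML.Raise.SoftTop
import Fermat.Agent.ML.Main.StepSplit

/-!
# ML / HARD / Mid / Two : the prime `2` in the middle block of a step, in the frame of `StepGen.genHyp_sub`

`At2.exists_pkg2_pol` ([CELL-2], on `V = X' × Λ²`) transported to the frame of a step : `C : TopCtx W p b K B N' X'`,
`H : Rho.IsRhoK N' (p^(K+1)) X' (rEB B) πE ρ Φ`, a stage module `Y ≤ X'`, a set `YS ⊇ Y` of points of `J₀(N')`.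

* `TwoRec` : the record : at most one variable `u` (auxiliary value `p * dz`), the multiplier `β2`, the polynomial `P2`;
  `out` (the fields of `IsCell` at `2` on every set of elements `β' • x₁`, `β2 ∣ β'`), `pol`, `val`, `strict`, `weight`.
* `exists_two` : existence; the value `N2val (rbarB b) P φ` is STATIC.
-/

set_option autoImplicit false
set_option linter.unusedSectionVars false
set_option linter.unusedVariables false

noncomputable section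

open AlgebraicCurve ModularCurve

namespace Fermat.Agent.ML.Hard.MidTwo

open Matrix Fermat.Agent.GAL Fermat.Agent.RIB Fermat.Agent.RIB.Rho Fermat.Agent.ML
  Fermat.Agent.ML.ESide Fermat.Agent.ML.Rho Fermat.Agent.ML.Lift Fermat.Agent.S56
  Fermat.Agent.S56.Gen Fermat.Agent.ML.FinGen Fermat.Agent.ML.StepGen Fermat.Agent.ML.Raise
  Fermat.Agent.ML.At2 ExtCitation
open CFT (decomp)

local notation "Qbar" => AlgebraicClosure ℚ
local notation "GQ" => (AlgebraicClosure ℚ ≃ₐ[ℚ] AlgebraicClosure ℚ)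
local notation "M₂" => Matrix (Fin 2) (Fin 2)

/-- the hypotheses on the stage module `Y` (its points lie in `YS`, which satisfies the conditions of a cell at `2`). -/
structure TwoIn {p : ℕ} (rbar0 : GQ →* M₂ (ZMod p)) (ε : ℤ) (P : Finset ℕ) {N' : ℕ} [NeZero N']
    {X' : AddSubgroup (JZero N')} {R : Type} [CommRing R] [Module R ↥X'] (Y : Submodule R ↥X') :
    Prop where
  gal : ∀ (g : GQ), ∀ y ∈ Y, ∀ y' : ↥X', (y' : JZero N') = g • (y : JZero N') → y' ∈ Y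
  ur : ¬ Ram rbar0 2 → 2 ∉ P → LocUr 2 {x : JZero N' | ∃ y ∈ Y, ((y : ↥X') : JZero N') = x}
  unip : Ram rbar0 2 ∨ 2 ∈ P → LocUnip 2 {x : JZero N' | ∃ y ∈ Y, ((y : ↥X') : JZero N') = x}
  st : 2 ∈ P → LocSt 2 ε {x : JZero N' | ∃ y ∈ Y, ((y : ↥X') : JZero N') = x}

/-- `TwoIn` from a set `YS ⊇ Y`. -/
theorem TwoIn.of_set {p : ℕ} {rbar0 : GQ →* M₂ (ZMod p)} {ε : ℤ} {P : Finset ℕ} {N' : ℕ}
    [NeZero N'] {X' : AddSubgroup (JZero N')} {R : Type} [CommRing R] [Module R ↥X']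
    {Y : Submodule R ↥X'}
    (hYG : ∀ (g : GQ), ∀ y ∈ Y, ∀ y' : ↥X', (y' : JZero N') = g • (y : JZero N') → y' ∈ Y)
    {YS : Set (JZero N')} (hYS : ∀ y ∈ Y, ((y : ↥X') : JZero N') ∈ YS)
    (hur : ¬ Ram rbar0 2 → 2 ∉ P → LocUr 2 YS) (hun : Ram rbar0 2 ∨ 2 ∈ P → LocUnip 2 YS)
    (hst : 2 ∈ P → LocSt 2 ε YS) : TwoIn rbar0 ε P Y := by
  have hsub : {x : JZero N' | ∃ y ∈ Y, ((y : ↥X') : JZero N') = x} ⊆ YS := by
    rintro _ ⟨y, hy, rfl⟩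
    exact hYS y hy
  exact ⟨hYG, fun h1 h2 => locUr_mono (hur h1 h2) hsub, fun h => locUnip_mono (hun h) hsub,
    fun h => locSt_mono (hst h) hsub⟩

/-- **the record at `2`**. -/
structure TwoRec (p : ℕ) [Fact p.Prime] (rbar0 : GQ →* M₂ (ZMod p)) (ε : ℤ) (P : Finset ℕ) (N2 : ℤ) {N' : ℕ}
    [NeZero N'] (X' : AddSubgroup (JZero N')) {R : Type} [CommRing R] [Module R ↥X']
    (π0 : R →+* ZMod p) (ρ : GQ →* M₂ R) (k2 : ℕ) (u : Fin k2 → R) (dz : Fin k2 → ℤ) (β2 : R)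
    (P2 : MvPolynomial (Fin k2) ℤ) : Prop where
  k2_le : k2 ≤ 1
  k2_of_mem : 2 ∈ P → k2 = 1
  pi0_u : ∀ j, π0 (u j) = 0
  hN : MvPolynomial.aeval (fun j => (p : ℤ) * dz j) P2 = N2
  weight : k2 = 1 → Nat.card ↥(B1loc (adRep (mapK (kM p) rbar0)) twoP) * Nat.card (kM p) ^ 1 ≤
    Nat.card (kM p) ^ 3
  /-- (OUT) -/
  out : ∀ β' : R, β2 ∣ β' → ∀ G' : Set (JZero N'),
    (∀ y ∈ G', ∃ x₁ : ↥X', ((β' • x₁ : ↥X') : JZero N') = y) →
    (2 ∈ P → LocSt 2 ε G') ∧ (Ram rbar0 2 ∨ 2 ∈ P → LocUnip 2 G') ∧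
    (¬ Ram rbar0 2 → 2 ∉ P → LocUr 2 G')
  /-- the multiplier is a polynomial in the variables modulo `Ann Y` -/
  pol : ∀ Y : Submodule R ↥X', TwoIn rbar0 ε P Y → β2 - MvPolynomial.aeval u P2 ∈ Y.annihilator
  /-- the value at the auxiliary point -/
  val : ∀ Y : Submodule R ↥X', TwoIn rbar0 ε P Y → ∀ x ∈ Y,
    (∀ j, (u j - (p : R) * ((dz j : ℤ) : R)) • x = 0) → β2 • x = N2 • x
  /-- (STRICT) -/
  strict : k2 = 1 → ∀ Y : Submodule R ↥X', TwoIn rbar0 ε P Y → ∀ I : Ideal R, (∀ j, u j ∈ I) →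
    ∃ M : M₂ R, IsUnit (M.map π0) ∧ ∀ σ ∈ decomp twoP, ConjConst ℤ (Y.annihilator ⊔ I) M (ρ σ)

section VJ

variable {L m : ℕ} [NeZero L] [NeZero m] {R : Type} [CommRing R] [Algebra (ZMod m) R]
  {X : AddSubgroup (JZero L)} [Module R ↥X] {rE : GQ →* M₂ (ZMod m)}
  {πE : R →ₐ[ZMod m] ZMod m} {ρ : GQ →* M₂ R} {Φ : M₂ R →ₐ[R] Module.End R ↥X}

/-- `LocUnip` on `YS ⊇ Y` ⟹ `LocUnip` on `Y × 0 ≤ V`. -/
theorem locUnip_sub (H : Fermat.Agent.ML.Rho.IsRhoK L m X rE πE ρ Φ) (Y : Submodule R ↥X)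
    (hYG : ∀ (g : GQ), ∀ y ∈ Y, ∀ y' : ↥X, (y' : JZero L) = g • (y : JZero L) → y' ∈ Y)
    {YS : Set (JZero L)} (hYS : ∀ y ∈ Y, (y : JZero L) ∈ YS) {q : ℕ} (h : LocUnip q YS) :
    LocUnip q (subVJ rE πE ρ Φ Y : Set (VJ X rE πE ρ Φ)) :=
  locUnip_of_map (ofVJ X rE πE ρ Φ) (ofVJ_gal H) (subVJ rE πE ρ Φ Y).toAddSubgroup
    (smul_mem_subVJ H hYG) (ofVJ_inj_subVJ Y) (locUnip_mono h (image_subVJ_subset Y hYS))

/-- a set of elements `β' • x₁` is in the image of `β' V`. -/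
theorem subset_image_range {β : R} {G' : Set (JZero L)}
    (hG' : ∀ x ∈ G', ∃ x₁ : ↥X, ((β • x₁ : ↥X) : JZero L) = x) :
    G' ⊆ ofVJ X rE πE ρ Φ '' (Set.range fun v : VJ X rE πE ρ Φ => β • v) := by
  intro x hx
  obtain ⟨x₁, h2⟩ := hG' x hx
  exact ⟨β • ((x₁ : XJ X ρ Φ), (0 : EMJ rE πE)), ⟨((x₁ : XJ X ρ Φ), (0 : EMJ rE πE)), rfl⟩, h2⟩

end VJ

section Main

variable {W : WeierstrassCurve ℤ} {p : ℕ} [Fact p.Prime] {T : Finset ℕ}
  {b : Module.Basis (Fin 2) (ZMod p) (TorsW W p)} {L₀ : ℕ} [NeZero L₀] {eps : ℕ → ℤ}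
  {eP : GQ → ℤ} (X : LCtx W p T b L₀ eps eP) {K : ℕ}
  {N' : ℕ} [NeZero N'] {X' : AddSubgroup (JZero N')}
  {B : Module.Basis (Fin 2) (ZMod (p ^ (K + 1))) (TorsW W (p ^ (K + 1)))}
  (C : TopCtx W p b K B N' X')
  {R : Type} [CommRing R] [Algebra (ZMod (p ^ (K + 1))) R] [Module R ↥X']
  {πE : R →ₐ[ZMod (p ^ (K + 1))] ZMod (p ^ (K + 1))} {ρ : GQ →* M₂ R}
  {Φ : M₂ R →ₐ[R] Module.End R ↥X'}
  (H : Fermat.Agent.ML.Rho.IsRhoK N' (p ^ (K + 1)) X' (rEB B) πE ρ Φ)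

include X C H in
/-- **the record at `2` exists** (any level `N'`, any `X'` with `TopCtx`). -/
theorem exists_two [IsLocalRing R] [Finite R] {P : Finset ℕ} (hP : P ⊆ Pfin W (rbarB b) L₀)
    {φ : GQ} (hφ : (primeLocalPlace twoP).IsFrobeniusAt φ 2) :
    ∃ (k2 : ℕ) (u : Fin k2 → R) (dz : Fin k2 → ℤ) (β2 : R) (P2 : MvPolynomial (Fin k2) ℤ),
      TwoRec p (rbarB b) (eps 2) P (N2val (rbarB b) P φ) X' (pi0 πE) ρ k2 u dz β2 P2 := by
  classical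
  have hA : (primeLocalPlace twoP).LiesOverPrime 2 := liesOverPrime_primeLocalPlace twoP
  have h2p : (2 : ℕ) ≠ p := Ne.symm X.C.hp2
  have hfg : (RingHom.ker (pi0 πE)).FG := IsNoetherian.noetherian _
  obtain ⟨n, hn⟩ := (Ideal.FG.isNilpotent_iff_le_nilradical hfg).2 (TopCtx.ker_pi0_le_nilradical H)
  -- the sign
  set ε : ℤ := if 2 ∈ P then eps 2 else 1 with hεdef
  have hε2 : 2 ∈ P → ε = eps 2 := fun h => by rw [hεdef, if_pos h]
  have hε : ε * ε = 1 := by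
    by_cases h : 2 ∈ P
    · rw [hε2 h]
      rcases (X.sgn 2 Nat.prime_two h2p (X.dvd_of_mem_Pfin (hP h))).1 with e | e <;> rw [e] <;>
        norm_num
    · rw [hεdef, if_neg h]
      norm_num
  have hPP : 2 ∈ P → ¬ Ram (rbarB b) 2 ∧ (rbarB b φ).trace = 3 * (ε : ZMod p) := by
    intro h
    refine ⟨X.not_ram_of_mem_Pfin (hP h) h2p, ?_⟩
    have hΔ := X.dvd_of_mem_Pfin (hP h)
    have h1 := pi0_c_top C H Nat.prime_two h2p (ε := eps 2) (by rw [← hε2 h]; exact hε)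
      (locSt_EM B X.sgn Nat.prime_two h2p hΔ) hA hφ
    rw [map_sub, sub_eq_zero, Gen2.pi0_trace (C.lift H)] at h1
    rw [h1, hε2 h]
    simp only [map_mul, map_add, map_intCast, map_natCast, map_one]
    push_cast
    ring
  have hdetF : (ρ φ).det = 2 := by
    rw [C.det_frob H Nat.prime_two h2p hA hφ]
    norm_num
  obtain ⟨k2, u, dl, β2, hpk, hk, dz, P2, hdl, hval, hpol⟩ :=
    exists_pkg2_pol (V := VJ X' (rEB B) πE ρ Φ) X.C H.rhoAct (X.C.adjoin_range_rho' (C.lift H))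
      (C.cont H) (C.lift H) (fun a ha => TopCtx.isUnit_of_pi0 H ha) hn
      (fun σ hσ => C.det_inertia H Nat.prime_two h2p hA hσ) hφ hdetF P ε hε hPP
  -- the stage module inside `V`
  have hIn : ∀ Y : Submodule R ↥X', TwoIn (rbarB b) (eps 2) P Y →
      (∀ g : GQ, ∀ x ∈ subVJ (rEB B) πE ρ Φ Y, g • x ∈ subVJ (rEB B) πE ρ Φ Y) ∧
      (¬ Ram (rbarB b) 2 → 2 ∉ P →
        LocUr 2 (subVJ (rEB B) πE ρ Φ Y : Set (VJ X' (rEB B) πE ρ Φ))) ∧
      (Ram (rbarB b) 2 ∨ 2 ∈ P →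
        LocUnip 2 (subVJ (rEB B) πE ρ Φ Y : Set (VJ X' (rEB B) πE ρ Φ))) ∧
      (2 ∈ P → LocSt 2 ε (subVJ (rEB B) πE ρ Φ Y : Set (VJ X' (rEB B) πE ρ Φ))) := by
    intro Y hY
    have hYS : ∀ y ∈ Y, ((y : ↥X') : JZero N') ∈
        {x : JZero N' | ∃ y ∈ Y, ((y : ↥X') : JZero N') = x} := fun y hy => ⟨y, hy, rfl⟩
    refine ⟨fun g x hx => smul_mem_subVJ H hY.gal g x hx,
      fun h1 h2 => locUr_subVJ H Y hY.gal hYS (hY.ur h1 h2),
      fun h => locUnip_sub H Y hY.gal hYS (hY.unip h), fun h => ?_⟩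
    rw [hε2 h]
    exact locSt_subVJ H Y hY.gal hYS (hY.st h)
  refine ⟨k2, u, dz, β2, P2, hpk.k2_le, fun h => hk.2 ⟨(hPP h).1, Or.inl h⟩, hpk.pi0_u, hval,
    fun hk1 => ?_, fun β' hβ G' hG' => ⟨fun h => ?_, fun h => ?_, fun h1 h2 => ?_⟩,
    fun Y hY => ?_, fun Y hY x hx hu => ?_, fun hk1 Y hY I hI => ?_⟩
  · obtain ⟨hram, h9'⟩ := hk.1 hk1
    have h9 : (rbarB b φ).trace ^ 2 = 9 := by
      rcases h9' with h | h
      · have hεZ : (ε : ZMod p) * (ε : ZMod p) = 1 := by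
          exact_mod_cast congrArg (Int.cast : ℤ → ZMod p) hε
        rw [(hPP h).2]
        linear_combination 9 * hεZ
      · exact h
    have hdetb : (rbarB b φ).det = 2 := by
      have h1 : pi0 πE (ρ φ).det = ((ρ φ).map (pi0 πE)).det := RingHom.map_det (pi0 πE) (ρ φ)
      rw [← C.lift H φ, ← h1, hdetF, map_ofNat]
    exact X.C.weight_one twoP (fun σ hσ => unram_of_not_ram hram _ hA σ hσ) hφ
      (nonscalar_of_trace h9 hdetb)
  · rw [← hε2 h]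
    exact locSt_mono (locSt_map (ofVJ X' (rEB B) πE ρ Φ) (ofVJ_gal H) (hpk.out_st h β' hβ))
      (subset_image_range hG')
  · exact locUnip_mono (locUnip_map (ofVJ X' (rEB B) πE ρ Φ) (ofVJ_gal H) (hpk.out_unip h β' hβ))
      (subset_image_range hG')
  · exact locUr_mono (locUr_map (ofVJ X' (rEB B) πE ρ Φ) (ofVJ_gal H) (hpk.out_ur h1 h2 β' hβ))
      (subset_image_range hG')
  · obtain ⟨g1, g2, g3, g4⟩ := hIn Y hY
    have := hpol _ g1 g2 g3 g4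
    rwa [annihilator_subVJ] at this
  · obtain ⟨g1, g2, g3, g4⟩ := hIn Y hY
    have h1 := hpk.val _ g1 g2 g3 g4 (inlVJ (rEB B) πE ρ Φ x) (inlVJ_mem hx) (fun j => by
      rw [hdl j]
      refine Prod.ext (hu j) ?_
      show _ • (0 : EMJ (rEB B) πE) = 0
      exact smul_zero _)
    exact congrArg Prod.fst h1
  · obtain ⟨g1, g2, g3, g4⟩ := hIn Y hY
    rcases hpk.gen _ g1 g2 g3 g4 with ⟨h0, -⟩ | ⟨-, -, hs⟩
    · omega
    · have := hs I hI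
      rwa [annihilator_subVJ] at this

end Main

end Fermat.Agent.ML.Hard.MidTwo
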