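import Fermat.Agent.ML.Hard.Mid.Two

/-!
# ML / HARD / Mid / TwoConst : the record at `2` without variable (`k2 = 0`) : the multiplier is the integer `N2` modulo `Ann Y`
-/

set_option autoImplicit false
set_option linter.unusedSectionVars false

noncomputable section

open AlgebraicCurve ModularCurve

namespace Fermat.Agent.ML.Hard.MidTwo

open Fermat.Agent.ML

local notation "GQ" => (AlgebraicClosure ℚ ≃ₐ[ℚ] AlgebraicClosure ℚ)
local notation "M₂" => Matrix (Fin 2) (Fin 2)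

variable {p : ℕ} [Fact p.Prime] {rbar0 : GQ →* M₂ (ZMod p)} {ε : ℤ} {P : Finset ℕ} {N2 : ℤ}
  {N' : ℕ} [NeZero N'] {X' : AddSubgroup (JZero N')} {R : Type} [CommRing R] [Module R ↥X']
  {π0 : R →+* ZMod p} {ρ : GQ →* M₂ R} {k2 : ℕ} {u : Fin k2 → R} {dz : Fin k2 → ℤ} {β2 : R}
  {P2 : MvPolynomial (Fin k2) ℤ}

/-- `k2 = 0` or `k2 = 1`. -/
theorem TwoRec.cases (h : TwoRec p rbar0 ε P N2 X' π0 ρ k2 u dz β2 P2) : k2 = 0 ∨ k2 = 1 := by
  have := h.k2_le
  omega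

/-- no variable : `2` has not been raised. -/
theorem TwoRec.not_mem (h : TwoRec p rbar0 ε P N2 X' π0 ρ k2 u dz β2 P2) (hk : k2 = 0) :
    2 ∉ P := fun h2 => by
  have := h.k2_of_mem h2
  omega

/-- **no variable** : `β2 = N2` modulo `Ann Y`   (`be0 := β2`, `N0 := N2` in `mid_abs_F` / `midF_abs`). -/
theorem TwoRec.const (h : TwoRec p rbar0 ε P N2 X' π0 ρ k2 u dz β2 P2) (hk : k2 = 0)
    (Y : Submodule R ↥X') (hY : TwoIn rbar0 ε P Y) : β2 - ((N2 : ℤ) : R) ∈ Y.annihilator := by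
  subst hk
  have h1 := h.pol Y hY
  have h2 := h.hN
  rw [MvPolynomial.eq_C_of_isEmpty P2] at h1 h2
  rw [MvPolynomial.aeval_C] at h1 h2
  rw [← h2]
  simpa using h1

end Fermat.Agent.ML.Hard.MidTwo
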