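import Fermat.Agent.ML.Hard.Mid.TwoOne
import Fermat.Agent.ML.Hard.Mid.TwoSpec

/-!
# ML / HARD / Mid / TwoF : `twoFStmt : Hard.TwoFStmt`   (the contract at the prime `2` of the middle block in the F-form)
-/

set_option autoImplicit false
set_option linter.unusedSectionVars false

noncomputable section

open AlgebraicCurve ModularCurve

namespace Fermat.Agent.ML.Hard.MidTwo

open Fermat.Agent.RIB Fermat.Agent.RIB.Rho Fermat.Agent.ML Fermat.Agent.ML.ESide Fermat.Agent.S56
  Fermat.Agent.S56.Gen ExtCitation Fermat.Agent.ML.Lift Fermat.Agent.ML.At2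

/-- **the contract at the prime `2`, F-form.** -/
theorem twoFStmt : TwoFStmt := by
  intro W p _ T b L₀ _ eps eP X P hP
  have hA : (primeLocalPlace twoP).LiesOverPrime 2 := liesOverPrime_primeLocalPlace twoP
  obtain ⟨φ, hφ⟩ := S54.exists_isFrobeniusAt_of_liesOverPrime Nat.prime_two _ hA
  refine ⟨N2val (rbarB b) P φ, N2val_ne_zero P φ, ?_⟩
  intro K N' _ V B C R _ _ _ _ _ πE ρ Φ H Y hYG YS hYS hur hun hst
  obtain ⟨k2, u, dz, β2, P2, h⟩ := exists_two X C H hP hφ
  have hY : TwoIn (rbarB b) (eps 2) P Y := TwoIn.of_set hYG hYS hur hun hst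
  have hout : Out2 V (rbarB b) P (eps 2) β2 := fun β' hβ S hS => by
    obtain ⟨o1, o2, o3⟩ := h.out β' hβ S hS
    exact ⟨fun h2 => ⟨o1 h2, o2 (Or.inr h2)⟩, fun h2 hr => o3 hr h2, fun hr => o2 (Or.inl hr)⟩
  rcases h.cases with hk | hk
  · exact Or.inl ⟨β2, h.const hk Y hY, fun h2 => absurd h2 (h.not_mem hk), hout⟩
  · subst hk
    refine Or.inr ⟨u 0, β2, polOne P2, (p : ℤ) * dz 0, h.pi0_u 0,
      fun I hI => h.strict rfl Y hY I fun j => by rwa [Subsingleton.elim j 0], ?_,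
      dvd_mul_right _ _, ?_, h.weight rfl, hout⟩
    · rw [aeval_polOne]
      exact h.pol Y hY
    · rw [← h.hN, ← Polynomial.coe_aeval_eq_eval]
      exact aeval_polOne P2 (fun j => (p : ℤ) * dz j)

end Fermat.Agent.ML.Hard.MidTwo
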