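/-
ML / HARD / Mid / TwoFin : `Hard.TwoFStmt` (`ML/Hard/Mid/TwoSpec.lean`) from `MidTwo.exists_two` (`ML/Hard/Mid/Two.lean`).
-/
import Fermat.Agent.ML.Hard.Mid.TwoSpec
import Fermat.Agent.ML.Hard.Mid.Two

set_option autoImplicit false
set_option linter.unusedSectionVars false

noncomputable section

open AlgebraicCurve ModularCurve

namespace Fermat.Agent.ML.Hard.Mid.TwoFin

open Fermat.Agent.RIB Fermat.Agent.RIB.Rho Fermat.Agent.ML Fermat.Agent.ML.ESide Fermat.Agent.S56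
  Fermat.Agent.S56.Gen ExtCitation Fermat.Agent.ML.Lift
open CFT (decomp)

local notation "GQ" => (AlgebraicClosure ℚ ≃ₐ[ℚ] AlgebraicClosure ℚ)
local notation "M₂" => Matrix (Fin 2) (Fin 2)

/-- one variable : `MvPolynomial (Fin 1)` to `Polynomial`. -/
theorem aeval_toPoly {A : Type*} [CommRing A] (u : A) (P2 : MvPolynomial (Fin 1) ℤ) :
    Polynomial.aeval u (MvPolynomial.aeval (fun _ : Fin 1 => (Polynomial.X : Polynomial ℤ)) P2) =
      MvPolynomial.aeval (fun _ : Fin 1 => u) P2 := by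
  have h := MvPolynomial.comp_aeval (R := ℤ) (fun _ : Fin 1 => (Polynomial.X : Polynomial ℤ))
    (Polynomial.aeval (R := ℤ) u)
  have h2 := DFunLike.congr_fun h P2
  simpa using h2

/-- **the contract at the prime `2`**, F-form. -/
theorem twoFStmt : TwoFStmt := by
  intro W p _ T b L₀ _ eps eP X P hP
  obtain ⟨φ, hφ⟩ := S54.exists_isFrobeniusAt_of_liesOverPrime Nat.prime_two _
    (liesOverPrime_primeLocalPlace twoP)
  refine ⟨At2.N2val (rbarB b) P φ, At2.N2val_ne_zero P φ, ?_⟩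
  intro K N' _ V B C R _ _ _ _ _ πE ρ Φ H Y hYG YS hYS hur hun hst
  obtain ⟨k2, u, dz, β2, P2, Tw⟩ := MidTwo.exists_two X C H hP hφ
  have hIn : MidTwo.TwoIn (rbarB b) (eps 2) P Y := MidTwo.TwoIn.of_set hYG hYS hur hun hst
  have hOut : Out2 V (rbarB b) P (eps 2) β2 := by
    intro β' hβ S hS
    obtain ⟨h1, h2, h3⟩ := Tw.out β' hβ S hS
    exact ⟨fun h => ⟨h1 h, h2 (Or.inr h)⟩, fun h hr => h3 hr h, fun hr => h2 (Or.inl hr)⟩
  have hk : k2 = 0 ∨ k2 = 1 := by have := Tw.k2_le; omega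
  rcases hk with hk | hk
  · subst hk
    left
    refine ⟨β2, ?_, fun h => absurd (Tw.k2_of_mem h) (by norm_num), hOut⟩
    have h1 := Tw.pol Y hIn
    have h2 := Tw.hN
    have h3 : MvPolynomial.aeval u P2 = ((At2.N2val (rbarB b) P φ : ℤ) : R) := by
      rw [← h2]
      have e1 : u = fun j => ((fun j => (p : ℤ) * dz j) j : R) := funext fun j => j.elim0
      rw [e1]
      exact (MvPolynomial.aeval_algebraMap_apply (A := ℤ) (B := R) _ P2)
    rwa [h3] at h1
  · subst hk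
    right
    refine ⟨u 0, β2, MvPolynomial.aeval (fun _ : Fin 1 => (Polynomial.X : Polynomial ℤ)) P2,
      (p : ℤ) * dz 0, Tw.pi0_u 0, fun I hI => Tw.strict rfl Y hIn I (fun j => ?_), ?_,
      Dvd.intro _ rfl, ?_, Tw.weight rfl, hOut⟩
    · rwa [Subsingleton.elim j 0]
    · rw [aeval_toPoly]
      have e1 : (fun _ : Fin 1 => u 0) = u := funext fun j => by rw [Subsingleton.elim j 0]
      rw [e1]
      exact Tw.pol Y hIn
    · have h2 := Tw.hN
      have e1 : (fun j : Fin 1 => (p : ℤ) * dz j) = fun _ => (p : ℤ) * dz 0 :=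
        funext fun j => by rw [Subsingleton.elim j 0]
      rw [e1, ← aeval_toPoly] at h2
      rw [← h2, Polynomial.aeval_def, Polynomial.eval₂_eq_eval_map]
      simp

end Fermat.Agent.ML.Hard.Mid.TwoFin
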