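import Fermat.Agent.ML.Hard.Mid.TwoConst
import Fermat.Agent.ML.Hard.Mid.Abs

/-!
# ML / HARD / Mid / TwoOne : the record at `2` with one variable (`k2 = 1`) as a `Hard.PkgOne` (input of `Hard.mid_abs_F`)
-/

set_option autoImplicit false
set_option linter.unusedSectionVars false

noncomputable section

open AlgebraicCurve ModularCurve

namespace Fermat.Agent.ML.Hard.MidTwo

open Fermat.Agent.ML Fermat.Agent.S56 Fermat.Agent.S56.Gen

local notation "GQ" => (AlgebraicClosure ℚ ≃ₐ[ℚ] AlgebraicClosure ℚ)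
local notation "M₂" => Matrix (Fin 2) (Fin 2)

variable {p : ℕ} [Fact p.Prime] {rbar0 : GQ →* M₂ (ZMod p)} {ε : ℤ} {P : Finset ℕ} {N2 : ℤ}
  {N' : ℕ} [NeZero N'] {X' : AddSubgroup (JZero N')} {R : Type} [CommRing R] [Module R ↥X']
  {π0 : R →+* ZMod p} {ρ : GQ →* M₂ R} {u : Fin 1 → R} {dz : Fin 1 → ℤ} {β2 : R}
  {P2 : MvPolynomial (Fin 1) ℤ}

/-- the polynomial in one variable. -/
def polOne (P2 : MvPolynomial (Fin 1) ℤ) : Polynomial ℤ :=
  MvPolynomial.aeval (fun _ : Fin 1 => (Polynomial.X : Polynomial ℤ)) P2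

theorem aeval_polOne {A : Type*} [CommRing A] (P2 : MvPolynomial (Fin 1) ℤ) (x : Fin 1 → A) :
    Polynomial.aeval (x 0) (polOne P2) = MvPolynomial.aeval x P2 := by
  rw [polOne, MvPolynomial.comp_aeval_apply]
  congr 2
  funext i
  rw [Polynomial.aeval_X, Subsingleton.elim i 0]

/-- **one variable** : the package of `Hard.mid_abs_F` at `twoP`. -/
theorem TwoRec.pkgOne (h : TwoRec p rbar0 ε P N2 X' π0 ρ 1 u dz β2 P2)
    (Y : Submodule R ↥X') (hY : TwoIn rbar0 ε P Y) {f2 : ℕ} (hf : ¬ (p : ℤ) ^ (f2 + 1) ∣ N2) :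
    PkgOne p π0 ρ Y twoP (u 0) β2 (polOne P2) ((p : ℤ) * dz 0) f2 where
  pi0_u := h.pi0_u 0
  strict := fun I hI => h.strict rfl Y hY I fun j => by rwa [Subsingleton.elim j 0]
  pol := by
    rw [aeval_polOne]
    exact h.pol Y hY
  hpt := dvd_mul_right _ _
  hN := by
    have e : (polOne P2).eval ((p : ℤ) * dz 0) = N2 := by
      rw [← h.hN, ← Polynomial.coe_aeval_eq_eval]
      exact aeval_polOne P2 (fun j => (p : ℤ) * dz j)
    rw [e]
    exact hf

end Fermat.Agent.ML.Hard.MidTwo
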