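import Fermat.Agent.ML.Hard.Mid.TwoConst
import Fermat.Agent.ML.Hard.MidAbs

/-!
# ML / HARD / Mid / TwoVar : the record at `2` with one variable (`k2 = 1`) as a `Hard.VarPkg` (input of `Hard.midF_abs`)
-/

set_option autoImplicit false
set_option linter.unusedSectionVars false

noncomputable section

open AlgebraicCurve ModularCurve

namespace Fermat.Agent.ML.Hard.MidTwo

open Fermat.Agent.ML Fermat.Agent.S56 Fermat.Agent.S56.Gen

local notation "GQ" => (AlgebraicClosure ℚ ≃ₐ[ℚ] AlgebraicClosure ℚ)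
local notation "M₂" => Matrix (Fin 2) (Fin 2)

variable {p : ℕ} [Fact p.Prime] {rbar0 : GQ →* M₂ (ZMod p)} {ε : ℤ} {P : Finset ℕ} {N2 : ℤ}
  {N' : ℕ} [NeZero N'] {X' : AddSubgroup (JZero N')} {R : Type} [CommRing R] [Module R ↥X']
  {π0 : R →+* ZMod p} {ρ : GQ →* M₂ R} {k2 : ℕ} {u : Fin k2 → R} {dz : Fin k2 → ℤ} {β2 : R}
  {P2 : MvPolynomial (Fin k2) ℤ}

/-- **one variable** : the package of `Hard.midF_abs` at `twoP`. -/
theorem TwoRec.varPkg (h : TwoRec p rbar0 ε P N2 X' π0 ρ k2 u dz β2 P2) (hk : k2 = 1)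
    (Y : Submodule R ↥X') (hY : TwoIn rbar0 ε P Y) {f2 : ℕ} (hf : ¬ (p : ℤ) ^ (f2 + 1) ∣ N2) :
    VarPkg p π0 ρ Y.annihilator twoP u β2 P2 (fun j => (p : ℤ) * dz j) f2 :=
  ⟨h.pi0_u, h.strict hk Y hY, h.pol Y hY, fun j => dvd_mul_right _ _, by rw [h.hN]; exact hf⟩

end Fermat.Agent.ML.Hard.MidTwo
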